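import Mathlib
import Fermat.Prelude.Def_ModularCurve_ArithmeticGalois
import Fermat.Agent.S24.JBridge

set_option autoImplicit false

/-!
# S29 / (R3-MF), part 1: the bridge over an arbitrary coefficient field `K ⊆ ℂ`

`S24.JBridge` embeds the function field `modularFunctionFieldBar N` (coefficients `ℚ̄`) into the
field `Mer` of meromorphic functions on `ℍ`.  Here the same construction is carried out for
`laurentBaseChange K (modularFunctionFieldFull N)` for *every* field `K` with a ring homomorphism
`ι : K →+* ℂ`, in particular for `K = ℂ`, `ι = id`.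
-/

namespace Fermat.Agent.S29.ModFunC

open Filter Topology Complex UpperHalfPlane ModularCurve
open scoped Real Manifold
open Fermat.Agent.S24 Fermat.Agent.S24.JExp Fermat.Agent.S24.JBridge

noncomputable section

section Transfer

variable (K : Type*) [Field K] [Algebra ℚ K] (N : ℕ) [NeZero N]

/-- The formal generators `j(q^d)` with coefficients in `K`. -/
def genF (d : Idx N) : LaurentSeries K := coeffEmb K (qExpand ℚ d jq)

variable {K} (ι : K →+* ℂ)

/-- Evaluation of polynomials at the formal generators. -/
def psi : MvPolynomial (Idx N) K →ₐ[K] LaurentSeries K := MvPolynomial.aeval (genF K N)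

/-- Evaluation of polynomials at the analytic generators. -/
def phi : MvPolynomial (Idx N) K →+* Hol :=
  MvPolynomial.eval₂Hom ((algebraMap ℂ Hol).comp ι) (genHol N)

theorem coeffMap_genF (d : Idx N) :
    coeffMap ι (genF K N d) = coeffMap (algebraMap ℚ ℂ) (qExpand ℚ d jq) := by
  rw [genF, coeffEmb, coeffMap_coeffMap]
  exact coeffMap_congr (Subsingleton.elim _ _) _

theorem hasLaurent_phi (P : MvPolynomial (Idx N) K) :
    HasLaurent ((phi N ι P : Hol) : ℍ → ℂ) (coeffMap ι (psi N P)) := by
  induction P using MvPolynomial.induction_on with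
  | C a =>
    have h1 : ((phi N ι (MvPolynomial.C a) : Hol) : ℍ → ℂ) = fun _ => ι a := by
      funext τ
      simp [phi]
    have h2 : coeffMap ι (psi (K := K) N (MvPolynomial.C a)) = HahnSeries.single 0 (ι a) := by
      simp only [psi, MvPolynomial.aeval_C]
      rw [algebraMap_laurentSeries_eq_single, coeffMap_single]
    rw [h1, h2]
    exact HasLaurent.const _
  | add p q hp hq =>
    rw [map_add, map_add, map_add, Hol.coe_add]
    exact hp.add hq
  | mul_X p d hp =>
    rw [map_mul, map_mul, map_mul, Hol.coe_mul]
    refine hp.mul ?_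
    have h1 : ((phi N ι (MvPolynomial.X d) : Hol) : ℍ → ℂ) = jdFun d := by
      simp [phi, genHol]
    have h2 : coeffMap ι (psi (K := K) N (MvPolynomial.X d)) =
        coeffMap (algebraMap ℚ ℂ) (qExpand ℚ d jq) := by
      simp only [psi, MvPolynomial.aeval_X]
      exact coeffMap_genF N ι d
    rw [h1, h2]
    exact hasLaurent_jdFun d

/-- The two-way transfer: a polynomial relation between the formal generators holds iff it holds
between the analytic generators. -/
theorem psi_eq_zero_iff (P : MvPolynomial (Idx N) K) : psi N P = 0 ↔ phi N ι P = 0 := by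
  have h := (hasLaurent_phi N ι P).eq_zero_iff
  have h1 : coeffMap ι (psi N P) = 0 ↔ psi N P = 0 := by
    constructor
    · intro h0
      exact JBridge.coeffMap_injective ι.injective (by rw [h0, map_zero])
    · intro h0
      rw [h0, map_zero]
  have h2 : ((phi N ι P : Hol) : ℍ → ℂ) = 0 ↔ phi N ι P = 0 := by
    constructor
    · intro h0
      exact Subtype.ext h0
    · intro h0
      rw [h0]
      rfl
  rw [← h1, ← h, h2]

end Transfer

/-! ### The embedding -/

section Embedding

open IntermediateField.algebraAdjoinAdjoin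

variable (K : Type*) [Field K] [Algebra ℚ K] (N : ℕ) [NeZero N]

/-- The function field over `K`. -/
abbrev FK : IntermediateField K (LaurentSeries K) :=
  laurentBaseChange K (modularFunctionFieldFull N)

/-- The function field is generated over `K` by the formal generators `j(q^d)`, `d ∣ N`. -/
theorem FK_eq : FK K N = IntermediateField.adjoin K (Set.range (genF K N)) := by
  apply le_antisymm
  · unfold FK laurentBaseChange
    rw [IntermediateField.adjoin_le_iff]
    rintro _ ⟨x, hx, rfl⟩
    have hx' : x ∈ IntermediateField.adjoin ℚ (divisorExpansions N) := hx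
    induction hx' using IntermediateField.adjoin_induction with
    | mem y hy =>
      obtain ⟨d, hne, hd, rfl⟩ := hy
      exact IntermediateField.subset_adjoin K _ ⟨⟨d, hd⟩, rfl⟩
    | algebraMap c =>
      rw [algebraMap_laurentSeries_eq_single, coeffEmb, coeffMap_single,
        ← algebraMap_laurentSeries_eq_single]
      exact IntermediateField.algebraMap_mem _ _
    | add y z _ _ hy hz => rw [map_add]; exact add_mem (hy ‹_›) (hz ‹_›)
    | inv y _ hy => rw [map_inv₀]; exact inv_mem (hy ‹_›)
    | mul y z _ _ hy hz => rw [map_mul]; exact mul_mem (hy ‹_›) (hz ‹_›)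
  · rw [IntermediateField.adjoin_le_iff]
    rintro _ ⟨d, rfl⟩
    exact coeffEmb_mem_laurentBaseChange K (jqd_mem_full N d.2)

variable {K} (ι : K →+* ℂ)

/-- The subalgebra generated by the formal generators. -/
abbrev genAlg : Subalgebra K (LaurentSeries K) := Algebra.adjoin K (Set.range (genF K N))

theorem exists_psi_eq (a : genAlg (K := K) N) : ∃ P, psi N P = (a : LaurentSeries K) := by
  have h : (a : LaurentSeries K) ∈ Algebra.adjoin K (Set.range (genF K N)) := a.2
  rw [Algebra.adjoin_range_eq_range_aeval] at h
  exact h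

/-- The underlying function of `theta`. -/
def thetaFun (a : genAlg (K := K) N) : Hol := phi N ι (Classical.choose (exists_psi_eq N a))

theorem thetaFun_eq (a : genAlg (K := K) N) (P : MvPolynomial (Idx N) K)
    (h : psi N P = (a : LaurentSeries K)) : thetaFun N ι a = phi N ι P := by
  have h0 := Classical.choose_spec (exists_psi_eq N a)
  have h1 : psi N (Classical.choose (exists_psi_eq N a) - P) = 0 := by
    rw [map_sub, h0, h, sub_self]
  have h2 := (psi_eq_zero_iff N ι _).mp h1
  rw [map_sub, sub_eq_zero] at h2
  exact h2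

theorem psi_mem (P : MvPolynomial (Idx N) K) : psi N P ∈ genAlg (K := K) N := by
  show psi N P ∈ Algebra.adjoin K (Set.range (genF K N))
  rw [Algebra.adjoin_range_eq_range_aeval]
  exact ⟨P, rfl⟩

/-- The ring homomorphism from the algebra of formal generators to holomorphic functions. -/
def theta : genAlg (K := K) N →+* Hol where
  toFun := thetaFun N ι
  map_one' := by
    rw [thetaFun_eq N ι 1 1 (by simp), map_one]
  map_mul' a b := by
    obtain ⟨P, hP⟩ := exists_psi_eq N a
    obtain ⟨Q, hQ⟩ := exists_psi_eq N b
    rw [thetaFun_eq N ι a P hP, thetaFun_eq N ι b Q hQ,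
      thetaFun_eq N ι (a * b) (P * Q) (by rw [map_mul, hP, hQ]; rfl), map_mul]
  map_zero' := by
    rw [thetaFun_eq N ι 0 0 (by simp), map_zero]
  map_add' a b := by
    obtain ⟨P, hP⟩ := exists_psi_eq N a
    obtain ⟨Q, hQ⟩ := exists_psi_eq N b
    rw [thetaFun_eq N ι a P hP, thetaFun_eq N ι b Q hQ,
      thetaFun_eq N ι (a + b) (P + Q) (by rw [map_add, hP, hQ]; rfl), map_add]

theorem theta_psi (P : MvPolynomial (Idx N) K) :
    theta N ι ⟨psi N P, psi_mem N P⟩ = phi N ι P :=
  thetaFun_eq N ι _ P rfl

theorem theta_injective : Function.Injective (theta N ι) := by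
  rw [injective_iff_map_eq_zero]
  intro a ha
  obtain ⟨P, hP⟩ := exists_psi_eq N a
  have h1 : theta N ι a = phi N ι P := thetaFun_eq N ι a P hP
  rw [h1] at ha
  have h2 := (psi_eq_zero_iff N ι P).mpr ha
  exact Subtype.ext (by rw [← hP, h2]; rfl)

/-- The embedding on the field generated by the formal generators. -/
def PhiGen : ↥(IntermediateField.adjoin K (Set.range (genF K N))) →+* Mer :=
  IsFractionRing.lift (A := genAlg (K := K) N)
    (g := (algebraMap Hol Mer).comp (theta N ι))
    ((IsFractionRing.injective Hol Mer).comp (theta_injective N ι))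

/-- **The bridge over `K`**: the embedding of the function field of `X₀(N)` over `K` into the
field of meromorphic functions on the upper half plane. -/
def PhiK : ↥(FK K N) →+* Mer :=
  (PhiGen N ι).comp
    (IntermediateField.inclusion (le_of_eq (FK_eq K N))).toRingHom

theorem psi_mem_field (P : MvPolynomial (Idx N) K) : psi N P ∈ FK K N := by
  rw [FK_eq]
  exact IntermediateField.algebra_adjoin_le_adjoin K _ (psi_mem N P)

/-- The value of the bridge on polynomial expressions in the generators. -/
theorem PhiK_psi (P : MvPolynomial (Idx N) K) :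
    PhiK N ι ⟨psi N P, psi_mem_field N P⟩ = algebraMap Hol Mer (phi N ι P) := by
  have h1 : (IntermediateField.inclusion (le_of_eq (FK_eq K N))).toRingHom
      ⟨psi N P, psi_mem_field N P⟩ =
      algebraMap (genAlg (K := K) N) ↥(IntermediateField.adjoin K (Set.range (genF K N)))
        ⟨psi N P, psi_mem N P⟩ := rfl
  rw [PhiK, RingHom.comp_apply, h1, PhiGen, IsFractionRing.lift_algebraMap, RingHom.comp_apply,
    theta_psi]

theorem PhiK_algebraMap (a : K) :
    PhiK N ι (algebraMap K ↥(FK K N) a) =
      algebraMap Hol Mer (algebraMap ℂ Hol (ι a)) := by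
  have h1 : algebraMap K ↥(FK K N) a =
      ⟨psi N (MvPolynomial.C a), psi_mem_field N _⟩ := by
    apply Subtype.ext
    simp [psi]
  rw [h1, PhiK_psi]
  simp [phi]

/-- The formal generator `j(q^d)` as an element of the function field. -/
def JdK (d : ℕ) [NeZero d] (hd : d ∣ N) : ↥(FK K N) :=
  ⟨coeffEmb K (qExpand ℚ d jq), coeffEmb_mem_laurentBaseChange K (jqd_mem_full N hd)⟩

theorem PhiK_JdK (d : ℕ) [NeZero d] (hd : d ∣ N) :
    PhiK N ι (JdK (K := K) N d hd) = algebraMap Hol Mer (jdHol d) := by
  have h1 : JdK (K := K) N d hd = ⟨psi N (MvPolynomial.X ⟨d, hd⟩), psi_mem_field N _⟩ := by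
    apply Subtype.ext
    simp [psi, JdK, genF]
  rw [h1, PhiK_psi]
  congr 1
  simp [phi, genHol, jdHol]

/-- Variant of `PhiK_JdK` for an arbitrary element with the right underlying series. -/
theorem PhiK_eq_of_coe_eq (d : ℕ) [NeZero d] (hd : d ∣ N) (x : ↥(FK K N))
    (hx : (x : LaurentSeries K) = coeffEmb K (qExpand ℚ d jq)) :
    PhiK N ι x = algebraMap Hol Mer (jdHol d) := by
  have : x = JdK N d hd := Subtype.ext hx
  rw [this, PhiK_JdK]

/-- The formal `j` as an element of the function field. -/
def JK : ↥(FK K N) := JdK N 1 (one_dvd N)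

omit [NeZero N] in
theorem coe_JK : ((JK (K := K) N : ↥(FK K N)) : LaurentSeries K) = coeffEmb K jq := by
  simp [JK, JdK, qExpand_one_apply]

theorem PhiK_JK : PhiK N ι (JK (K := K) N) = algebraMap Hol Mer jHol := by
  rw [JK, PhiK_JdK, jdHol_one]

theorem PhiK_injective : Function.Injective (PhiK N ι) := (PhiK N ι).injective

end Embedding

end

end Fermat.Agent.S29.ModFunC
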