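import Mathlib
import Fermat.Agent.S29.ModFunC.Bridge
import Fermat.Agent.S24.PhiInvGen
import Fermat.Agent.S24.CuspMem

set_option autoImplicit false

/-!
# S29 / (R3-MF), part 1b: properties of the bridge over `K ⊆ ℂ`

* `adjoin_gensK_eq_top` : `F_K` is generated over `K` by the `j(q^d)`, `d ∣ N`;
* `compMer_PhiK` : `Φ f` is `Γ₀(N)`-invariant;
* `compMer_PhiK_mem_MerInf` : every `SL(2,ℤ)`-translate of `Φ f` is meromorphic at `i∞`
  (in the parameter `q_N`);
* `PhiK_hasLaurent` : `f` *is* the `q`-expansion of `Φ f`.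
-/

namespace Fermat.Agent.S29.ModFunC

open scoped MatrixGroups
open IntermediateField UpperHalfPlane CongruenceSubgroup ModularCurve
open Fermat.Agent.S24 Fermat.Agent.S24.PsiLe Fermat.Agent.S24.JBridge

noncomputable section

variable (K : Type*) [Field K] [Algebra ℚ K] (N : ℕ)

/-- the generators `J_d`, `d ∣ N` -/
def gensK : Set ↥(FK K N) :=
  {x | ∃ (d : ℕ) (_ : NeZero d) (hd : d ∣ N), x = JdK N d hd}

variable {K} in
theorem JdK_mem_gensK (d : ℕ) [NeZero d] (hd : d ∣ N) : JdK (K := K) N d hd ∈ gensK K N :=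
  ⟨d, ‹_›, hd, rfl⟩

theorem image_gensK :
    (Subtype.val '' gensK K N : Set (LaurentSeries K))
      = ⇑(coeffEmb K) '' divisorExpansions N := by
  ext y
  constructor
  · rintro ⟨x, ⟨d, hne, hd, rfl⟩, rfl⟩
    exact ⟨qExpand ℚ d jq, ⟨d, hne, hd, rfl⟩, rfl⟩
  · rintro ⟨x, ⟨d, hne, hd, rfl⟩, rfl⟩
    have := hne
    exact ⟨JdK N d hd, JdK_mem_gensK N d hd, rfl⟩

/-- **the function field over `K` is generated over `K` by the `J_d`, `d ∣ N`.** -/
theorem adjoin_gensK_eq_top :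
    IntermediateField.adjoin K (gensK K N) = ⊤ := by
  apply IntermediateField.lift_injective (FK K N)
  rw [IntermediateField.lift_adjoin, IntermediateField.lift_top, image_gensK]
  exact (PhiInvGen.laurentBaseChange_adjoin K (divisorExpansions N)).symm

variable {K} [NeZero N] (ι : K →+* ℂ)

theorem PhiK_const (a : K) : ∃ c : ℂ,
    PhiK N ι (algebraMap K ↥(FK K N) a) = algebraMap Hol Mer (algebraMap ℂ Hol c) :=
  ⟨ι a, PhiK_algebraMap N ι a⟩

theorem PhiK_gen (s : ↥(FK K N)) (hs : s ∈ gensK K N) :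
    ∃ (d : ℕ) (_ : NeZero d), d ∣ N ∧ ∃ h : Hol, PhiK N ι s = algebraMap Hol Mer h ∧
      ∀ z w : ℍ, (w : ℂ) = (d : ℂ) * (z : ℂ) → (h : ℍ → ℂ) z = jFun w := by
  obtain ⟨d, hne, hd, rfl⟩ := hs
  have := hne
  exact ⟨d, hne, hd, jdHol d, PhiK_JdK N ι d hd, fun z w h => jdHol_apply_of_eq d z w h⟩

/-- **`Γ₀(N)`-invariance of the bridge.** -/
theorem compMer_PhiK {γ : SL(2, ℤ)} (hγ : γ ∈ Gamma0 N) (f : ↥(FK K N)) :
    compMer γ (PhiK N ι f) = PhiK N ι f :=
  PhiInvGen.compMer_eq_of_bridge N (PhiK N ι) (gensK K N) (adjoin_gensK_eq_top K N)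
    (PhiK_const N ι) (PhiK_gen N ι) γ hγ f

/-- `SL(2,ℤ)` fixes the constants. -/
theorem compMer_PhiK_const (γ : SL(2, ℤ)) (a : K) :
    compMer γ (PhiK N ι (algebraMap K ↥(FK K N) a)) = PhiK N ι (algebraMap K ↥(FK K N) a) := by
  have h : compHol γ (algebraMap ℂ Hol (ι a)) = algebraMap ℂ Hol (ι a) :=
    Hol.ext fun z => by rw [compHol_apply, Hol.coe_algebraMap, Hol.coe_algebraMap]
  rw [PhiK_algebraMap, compMer_algebraMap, h]

/-- `SL(2,ℤ)` fixes `j`. -/
theorem compMer_PhiK_JK (γ : SL(2, ℤ)) :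
    compMer γ (PhiK N ι (JK N)) = PhiK N ι (JK N) := by
  have h : compHol γ jHol = jHol :=
    Hol.ext fun z => by rw [compHol_apply, jHol_apply, jHol_apply, jFun_smul]
  rw [PhiK_JK, compMer_algebraMap, h]

/-- every translate of the image of a generator lies in `MerInf N`. -/
theorem compMer_PhiK_JdK_mem (γ : SL(2, ℤ)) (d : ℕ) [NeZero d] (hd : d ∣ N) :
    compMer γ (PhiK N ι (JdK N d hd)) ∈ MerInf N := by
  rw [PhiK_JdK]
  show compMer γ (toMer (jdHol d)) ∈ MerInf N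
  rw [compMer_toMer]
  apply toMer_mem_MerInf
  show IsMeroCusp (N : ℝ) ((compHol γ (jdHol d) : Hol) : ℍ → ℂ)
  have e : ((compHol γ (jdHol d) : Hol) : ℍ → ℂ) = JConj.conjG jFun d γ⁻¹ := by
    funext z
    rw [compHol_apply, jdHol_apply_of_eq d _ _ (JConj.coe_mulN d (γ • z))]
    unfold JConj.conjG
    rw [inv_inv]
  rw [e]
  exact (CuspExp.isMeroCusp_conjG CuspExp.jLike_jFun (cuspMer_natPos N) d hd γ⁻¹).1

/-- **every `SL(2, ℤ)`-translate of `Φ f` lies in `MerInf N`.** -/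
theorem compMer_PhiK_mem_MerInf (γ : SL(2, ℤ)) (f : ↥(FK K N)) :
    compMer γ (PhiK N ι f) ∈ MerInf N := by
  refine forall_mem_MerInf_of_adjoin N ((compMer γ).comp (PhiK N ι)) (gensK K N)
    (adjoin_gensK_eq_top K N) (fun a => ?_) ?_ f
  · show compMer γ (PhiK N ι (algebraMap K ↥(FK K N) a)) ∈ MerInf N
    rw [compMer_PhiK_const, PhiK_algebraMap]
    exact toMer_mem_MerInf N ((HolInf N).algebraMap_mem (ι a))
  · rintro s ⟨d, hne, hd, rfl⟩
    have := hne
    exact compMer_PhiK_JdK_mem N ι γ d hd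

theorem PhiK_mem_MerInf (f : ↥(FK K N)) : PhiK N ι f ∈ MerInf N := by
  have := compMer_PhiK_mem_MerInf N ι 1 f
  rwa [PhiInvGen.compMer_one] at this

/-! ### `f` is the `q`-expansion of `Φ f` -/

open IntermediateField.algebraAdjoinAdjoin in
/-- every element of the function field is a quotient of two polynomial expressions in the
generators. -/
theorem exists_psi_div (x : ↥(FK K N)) : ∃ P Q : MvPolynomial (Idx N) K,
    psi N Q ≠ 0 ∧ (x : LaurentSeries K) * psi N Q = psi N P := by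
  let y : ↥(IntermediateField.adjoin K (Set.range (genF K N))) :=
    IntermediateField.inclusion (le_of_eq (FK_eq K N)) x
  obtain ⟨⟨u, v⟩, huv⟩ := IsLocalization.surj (nonZeroDivisors (genAlg (K := K) N)) y
  obtain ⟨P, hP⟩ := exists_psi_eq N u
  obtain ⟨Q, hQ⟩ := exists_psi_eq N (v : genAlg (K := K) N)
  refine ⟨P, Q, ?_, ?_⟩
  · rw [hQ]
    intro h0
    have : (v : genAlg (K := K) N) = 0 := Subtype.ext h0
    exact nonZeroDivisors.coe_ne_zero v this
  · rw [hP, hQ]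
    have := congrArg (fun z : ↥(IntermediateField.adjoin K (Set.range (genF K N))) =>
      (z : LaurentSeries K)) huv
    exact this

/-- **`f` is the `q`-expansion of `Φ f`**: `Φ f = a / b` with `a`, `b` holomorphic with Laurent
expansions `s`, `t` at `i∞` and `f · t = s` (coefficients transported by `ι`). -/
theorem PhiK_hasLaurent (x : ↥(FK K N)) : ∃ a b : Hol, b ≠ 0 ∧
    PhiK N ι x * toMer b = toMer a ∧ ∃ s t : LaurentSeries ℂ, t ≠ 0 ∧
      HasLaurent (a : ℍ → ℂ) s ∧ HasLaurent (b : ℍ → ℂ) t ∧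
        coeffMap ι (x : LaurentSeries K) * t = s := by
  obtain ⟨P, Q, hQ0, hPQ⟩ := exists_psi_div N x
  have hb0 : phi N ι Q ≠ 0 := fun h => hQ0 ((psi_eq_zero_iff N ι Q).mpr h)
  refine ⟨phi N ι P, phi N ι Q, hb0, ?_, coeffMap ι (psi N P), coeffMap ι (psi N Q), ?_,
    hasLaurent_phi N ι P, hasLaurent_phi N ι Q, ?_⟩
  · have h1 : x * ⟨psi N Q, psi_mem_field N Q⟩ = ⟨psi N P, psi_mem_field N P⟩ :=
      Subtype.ext hPQ
    have h2 := congrArg (PhiK N ι) h1
    rw [map_mul, PhiK_psi, PhiK_psi] at h2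
    exact h2
  · intro h0
    exact hQ0 (JBridge.coeffMap_injective ι.injective (by rw [h0, map_zero]))
  · rw [← map_mul, hPQ]

end

end Fermat.Agent.S29.ModFunC
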