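import Mathlib

set_option autoImplicit false

/-!
# S29 / (R3-MF): a field extension of characteristic zero in which every element has degree `≤ n`
has degree `≤ n`; the resulting "squeeze" lemma.

Mathlib only.
-/

namespace Fermat.Agent.S29.ModFunC.DegreeBound

open IntermediateField Polynomial

/-- In characteristic zero, if every element of `L` is a root of a nonzero polynomial of degree
`≤ n` over `k`, then `[L : k] ≤ n`. -/
theorem finrank_le_of_forall_exists_poly {k L : Type*} [Field k] [Field L] [Algebra k L]
    [CharZero k] (n : ℕ)
    (h : ∀ x : L, ∃ p : k[X], p ≠ 0 ∧ p.natDegree ≤ n ∧ aeval x p = 0) :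
    FiniteDimensional k L ∧ Module.finrank k L ≤ n := by
  have hint : ∀ x : L, IsIntegral k x := fun x => by
    obtain ⟨p, hp0, -, hp⟩ := h x
    exact (isAlgebraic_iff_isIntegral).mp ⟨p, hp0, hp⟩
  have hdeg : ∀ x : L, (minpoly k x).natDegree ≤ n := fun x => by
    obtain ⟨p, hp0, hpn, hp⟩ := h x
    exact (natDegree_le_of_dvd (minpoly.dvd k x hp) hp0).trans hpn
  have : Algebra.IsAlgebraic k L := ⟨fun x => (hint x).isAlgebraic⟩
  -- every finite-dimensional intermediate field has degree ≤ n
  have key : ∀ M : IntermediateField k L, FiniteDimensional k M → Module.finrank k M ≤ n := by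
    intro M hM
    obtain ⟨α, hα⟩ := Field.exists_primitive_element k M
    have h1 : Module.finrank k M = Module.finrank k (k⟮α⟯) := by
      rw [hα]
      exact (IntermediateField.finrank_top').symm
    have hαint : IsIntegral k α := IsIntegral.of_finite k α
    rw [h1, IntermediateField.adjoin.finrank hαint]
    have h2 : minpoly k α = minpoly k (α : L) := (minpoly.algebraMap_eq
      (algebraMap M L).injective α).symm
    rw [h2]
    exact hdeg _
  have hrank : Module.rank k L ≤ (n : Cardinal) := by
    refine rank_le fun s hs => ?_
    classical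
    let M : IntermediateField k L := IntermediateField.adjoin k (s : Set L)
    have : FiniteDimensional k M :=
      IntermediateField.finiteDimensional_adjoin (fun x _ => hint x)
    have hM := key M inferInstance
    -- the family lifts to `M`
    let v : {x // x ∈ s} → M := fun i => ⟨i.1, IntermediateField.subset_adjoin k _ i.2⟩
    have hv : LinearIndependent k v := by
      have : LinearIndependent k (fun i : {x // x ∈ s} => (M.val.toLinearMap) (v i)) := hs
      exact LinearIndependent.of_comp M.val.toLinearMap this
    have hcard := hv.fintype_card_le_finrank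
    simp only [Fintype.card_coe] at hcard
    exact hcard.trans hM
  have hfin : FiniteDimensional k L := by
    have hlt : Module.rank k L < Cardinal.aleph0 := lt_of_le_of_lt hrank (Cardinal.natCast_lt_aleph0)
    exact Module.rank_lt_aleph0_iff.mp hlt
  exact ⟨hfin, Module.finrank_le_of_rank_le hrank⟩

/-- **The squeeze.**  `F/k` finite of degree `n`, characteristic zero, `Φ : F →ₐ[k] M` into a field,
`E` an intermediate field of `M/k` containing the image of `Φ`, all of whose elements are roots of
nonzero polynomials of degree `≤ n` over `k`.  Then `E` is the image of `Φ`. -/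
theorem mem_range_of_squeeze {k F M : Type*} [Field k] [Field F] [Field M] [Algebra k F]
    [Algebra k M] [CharZero k] [FiniteDimensional k F] (Φ : F →ₐ[k] M)
    (E : IntermediateField k M) (hΦ : ∀ f : F, Φ f ∈ E)
    (hE : ∀ x ∈ E, ∃ p : k[X], p ≠ 0 ∧ p.natDegree ≤ Module.finrank k F ∧ aeval x p = 0)
    {x : M} (hx : x ∈ E) : x ∈ Φ.range := by
  set n := Module.finrank k F with hn
  have hE' : ∀ y : E, ∃ p : k[X], p ≠ 0 ∧ p.natDegree ≤ n ∧ aeval y p = 0 := by
    intro y
    obtain ⟨p, hp0, hpn, hp⟩ := hE y y.2
    refine ⟨p, hp0, hpn, ?_⟩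
    apply (algebraMap E M).injective
    rw [map_zero, ← Polynomial.aeval_algebraMap_apply]
    exact hp
  obtain ⟨hfin, hle⟩ := finrank_le_of_forall_exists_poly (k := k) (L := E) n hE'
  -- the image of Φ as a submodule
  let R : Submodule k M := LinearMap.range Φ.toLinearMap
  have hR : R ≤ E.toSubalgebra.toSubmodule := by
    rintro _ ⟨f, rfl⟩
    exact hΦ f
  have hRn : Module.finrank k R = n := by
    have := LinearMap.finrank_range_of_inj (f := Φ.toLinearMap) Φ.toRingHom.injective
    rw [hn]
    exact this
  have : FiniteDimensional k (E.toSubalgebra.toSubmodule) := hfin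
  have heq : R = E.toSubalgebra.toSubmodule := by
    refine Submodule.eq_of_le_of_finrank_le hR ?_
    rw [hRn]
    exact hle
  have hxR : x ∈ R := by
    rw [heq]
    exact hx
  obtain ⟨f, hf⟩ := hxR
  exact ⟨f, hf⟩

end Fermat.Agent.S29.ModFunC.DegreeBound
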