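import Mathlib
import Fermat.Agent.S24.CuspMer
import Fermat.Agent.S24.PlaceAt
import Fermat.Agent.S24.JPolyC
import Fermat.Agent.S24.PhiInvGen
import Fermat.Agent.S24.CuspExp
import Fermat.Agent.S24.JBridge

set_option autoImplicit false

/-!
# S29 / (R3-MF), part 2: the level one case

An element of `Mer` which is invariant under `SL(2,ℤ)` and meromorphic at `i∞` is a rational
function of `j`.
-/

namespace Fermat.Agent.S29.ModFunC

open scoped MatrixGroups
open UpperHalfPlane Function Filter Topology Complex Polynomial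
open Fermat.Agent.S24 Fermat.Agent.S24.PsiLe

noncomputable section

local notation "𝕢" => Function.Periodic.qParam

variable (N : ℕ) [NeZero N]

/-! ### holomorphic + periodic + in `MerInf` implies in `HolInf` -/

theorem eventually_cuspFunction_ne_zero {b : Hol} (hb : b ∈ HolInf N) (hb0 : b ≠ 0) :
    ∀ᶠ q in 𝓝[≠] (0 : ℂ), cuspFunction (N : ℝ) (b : ℍ → ℂ) q ≠ 0 := by
  have hb' : IsMeroCusp (N : ℝ) (b : ℍ → ℂ) := hb
  rcases hb'.mero.eventually_eq_zero_or_eventually_ne_zero with h0 | h1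
  · exfalso
    exact (hb'.order_ne_top (cuspMer_pos N) (Hol.coe_ne_zero hb0))
      (meromorphicOrderAt_eq_top_iff.mpr h0)
  · exact h1

/-- a nonzero element of `HolInf N` has no zeros high up. -/
theorem exists_im_forall_ne_zero {b : Hol} (hb : b ∈ HolInf N) (hb0 : b ≠ 0) :
    ∃ Y : ℝ, ∀ z : ℍ, Y ≤ z.im → (b : ℍ → ℂ) z ≠ 0 := by
  have hb' : IsMeroCusp (N : ℝ) (b : ℍ → ℂ) := hb
  have h1 := (tendsto_qParam_nhdsNE (cuspMer_pos N)).eventually
    (eventually_cuspFunction_ne_zero N hb hb0)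
  have h2 : {z : ℍ | (b : ℍ → ℂ) z ≠ 0} ∈ atImInfty := by
    filter_upwards [h1] with τ hτ
    rwa [cuspFunction_qParam (cuspMer_pos N) hb'.periodic] at hτ
  exact (atImInfty_mem _).mp h2

theorem mem_HolInf_of_toMer_mem {h : Hol}
    (hper : ∀ τ : ℍ, (h : ℍ → ℂ) ((N : ℝ) +ᵥ τ) = (h : ℍ → ℂ) τ)
    (hm : toMer h ∈ MerInf N) : h ∈ HolInf N := by
  obtain ⟨a, b, ha, hb, hb0, hab⟩ := hm
  have hmul : h * b = a := by
    apply toMer_injective
    rw [map_mul, hab, div_mul_cancel₀ _ (toMer_ne_zero hb0)]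
  have hpos := cuspMer_pos N
  have ha' : IsMeroCusp (N : ℝ) (a : ℍ → ℂ) := ha
  have hb' : IsMeroCusp (N : ℝ) (b : ℍ → ℂ) := hb
  refine ⟨Hol.mdiff h, hper, ?_⟩
  have hprod : cuspFunction (N : ℝ) ((h : ℍ → ℂ) * (b : ℍ → ℂ)) =ᶠ[𝓝[≠] 0]
      cuspFunction (N : ℝ) (h : ℍ → ℂ) * cuspFunction (N : ℝ) (b : ℍ → ℂ) :=
    cuspFunction_mul_eventuallyEq hpos hper hb'.periodic
  have hcoe : (h : ℍ → ℂ) * (b : ℍ → ℂ) = (a : ℍ → ℂ) := by
    rw [← hmul, Hol.coe_mul]
  rw [hcoe] at hprod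
  refine (ha'.mero.div hb'.mero).congr ?_
  filter_upwards [hprod, eventually_cuspFunction_ne_zero N hb hb0] with q h1 h2
  rw [Pi.div_apply, h1, Pi.mul_apply, mul_div_assoc, div_self h2, mul_one]

/-! ### finitely many zeros in the truncated fundamental domain -/

/-- the truncated fundamental domain, as a subset of `ℂ` -/
def fdTrunc (Y : ℝ) : Set ℂ :=
  {w : ℂ | 1 ≤ Complex.normSq w ∧ |w.re| ≤ 1 / 2 ∧ 0 ≤ w.im ∧ w.im ≤ Y}

theorem isCompact_fdTrunc (Y : ℝ) : IsCompact (fdTrunc Y) := by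
  apply Metric.isCompact_of_isClosed_isBounded
  · have h1 : IsClosed {w : ℂ | 1 ≤ Complex.normSq w} :=
      isClosed_le continuous_const Complex.continuous_normSq
    have h2 : IsClosed {w : ℂ | |w.re| ≤ 1 / 2} :=
      isClosed_le (continuous_abs.comp Complex.continuous_re) continuous_const
    have h3 : IsClosed {w : ℂ | 0 ≤ w.im} := isClosed_le continuous_const Complex.continuous_im
    have h4 : IsClosed {w : ℂ | w.im ≤ Y} := isClosed_le Complex.continuous_im continuous_const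
    exact h1.inter (h2.inter (h3.inter h4))
  · rw [isBounded_iff_forall_norm_le]
    refine ⟨1 / 2 + |Y|, ?_⟩
    rintro w ⟨-, h2, h3, h4⟩
    refine (Complex.norm_le_abs_re_add_abs_im w).trans ?_
    have : |w.im| ≤ |Y| := by
      rw [abs_of_nonneg h3]
      exact h4.trans (le_abs_self Y)
    linarith

theorem im_pos_of_mem_fdTrunc {Y : ℝ} {w : ℂ} (hw : w ∈ fdTrunc Y) : 0 < w.im := by
  obtain ⟨h1, h2, h3, -⟩ := hw
  rw [Complex.normSq_apply] at h1
  have h5 : w.re * w.re ≤ 1 / 4 := by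
    have := abs_le.mp h2
    nlinarith [this.1, this.2]
  rcases h3.lt_or_eq with h | h
  · exact h
  · exfalso
    rw [← h] at h1
    nlinarith

theorem coe_mem_fdTrunc {Y : ℝ} {z : ℍ} (hz : z ∈ ModularGroup.fd) (hY : z.im ≤ Y) :
    (z : ℂ) ∈ fdTrunc Y :=
  ⟨hz.1, hz.2, z.im_pos.le, hY⟩

/-- finitely many zeros of a nonzero holomorphic function in the truncated fundamental domain -/
theorem finite_zeros_fd {b : Hol} (hb0 : b ≠ 0) (Y : ℝ) :
    {z : ℍ | z ∈ ModularGroup.fd ∧ z.im ≤ Y ∧ (b : ℍ → ℂ) z = 0}.Finite := by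
  set f : ℂ → ℂ := (b : ℍ → ℂ) ∘ ofComplex with hf
  have han : ∀ w ∈ fdTrunc Y, AnalyticAt ℂ f w := fun w hw =>
    Hol.analyticAt b ⟨w, im_pos_of_mem_fdTrunc hw⟩
  have hmer : MeromorphicOn f (fdTrunc Y) := fun w hw => (han w hw).meromorphicAt
  have hfin := (MeromorphicOn.divisor f (fdTrunc Y)).finiteSupport (isCompact_fdTrunc Y)
  refine (hfin.preimage (Set.injOn_of_injective UpperHalfPlane.coe_injective)).subset ?_
  rintro z ⟨hz, hY, hbz⟩
  have hmem := coe_mem_fdTrunc hz hY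
  show (z : ℂ) ∈ (MeromorphicOn.divisor f (fdTrunc Y)).support
  rw [Function.mem_support, MeromorphicOn.divisor_apply hmer hmem,
    (Hol.analyticAt b z).meromorphicOrderAt_eq]
  have h1 : analyticOrderAt f (z : ℂ) = (Hol.ordNat z b : ℕ∞) := (Hol.coe_ordNat hb0).symm
  rw [h1, ENat.map_natCast]
  have h2 : Hol.ordNat z b ≠ 0 := by
    rw [Ne, Hol.ordNat_eq_zero_iff z hb0]
    exact not_not.mpr hbz
  simpa using h2

/-! ### invariance, growth -/

omit [NeZero N] in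
theorem T_zpow_smul_eq_vadd (τ : ℍ) : (ModularGroup.T ^ (N : ℤ)) • τ = (N : ℝ) +ᵥ τ := by
  apply UpperHalfPlane.ext
  rw [ModularGroup.coe_T_zpow_smul_eq, UpperHalfPlane.coe_vadd]
  push_cast
  ring

omit [NeZero N] in
theorem periodic_of_compHol_eq {h : Hol} (hinv : ∀ δ : SL(2, ℤ), compHol δ h = h) (τ : ℍ) :
    (h : ℍ → ℂ) ((N : ℝ) +ᵥ τ) = (h : ℍ → ℂ) τ := by
  rw [← T_zpow_smul_eq_vadd, ← compHol_apply, hinv]

open Fermat.Agent.S20 in
theorem finGrowth_of_mem_HolInf {h : Hol} (hh : h ∈ HolInf N) :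
    JPolyC.FinGrowth (h : ℍ → ℂ) := by
  have hh' : IsMeroCusp (N : ℝ) (h : ℍ → ℂ) := hh
  obtain ⟨m, hm⟩ := hh'.exists_isBounded_mul_pow (cuspMer_pos N)
  refine ⟨m, ?_⟩
  have hNpos := cuspMer_pos N
  have hc : (0 : ℝ) ≤ (m : ℝ) - (m : ℝ) / N := by
    have h1 : (1 : ℝ) ≤ N := by exact_mod_cast cuspMer_natPos N
    have h2 : (m : ℝ) / N ≤ m := div_le_self (Nat.cast_nonneg m) h1
    linarith
  have h2 := hm.mul (isBoundedAtImInfty_expFn hc)
  refine h2.congr' ?_ (Filter.EventuallyEq.refl _ _)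
  filter_upwards with z
  simp only [Pi.mul_apply]
  rw [CuspExp.qParam_pow_eq_expFn, mul_assoc, ← expFn_add]
  congr 2
  ring

/-! ### the functions `j - w` -/

theorem jSub_mem_HolInf (w : ℂ) : PlaceAt.jSub w ∈ HolInf N := by
  show IsMeroCusp (N : ℝ) (fun z : ℍ => jFun z - w)
  exact (isMeroCusp_jFun N).sub (cuspMer_pos N) (isMeroCusp_const (cuspMer_pos N) w)

theorem compHol_jSub (δ : SL(2, ℤ)) (w : ℂ) : compHol δ (PlaceAt.jSub w) = PlaceAt.jSub w := by
  refine Hol.ext fun z => ?_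
  rw [compHol_apply]
  show jFun (δ • z) - w = jFun z - w
  rw [jFun_smul]

theorem jSub_apply (w : ℂ) (z : ℍ) : (PlaceAt.jSub w : ℍ → ℂ) z = jFun z - w := rfl

theorem one_le_ordNat_jSub {z z' : ℍ} (h : jFun z = jFun z') :
    1 ≤ Hol.ordNat z (PlaceAt.jSub (jFun z')) := by
  rw [Nat.one_le_iff_ne_zero, Ne, Hol.ordNat_eq_zero_iff z (PlaceAt.jSub_ne_zero _), not_not,
    jSub_apply, h, sub_self]

theorem aeval_jHol_X_sub_C (w : ℂ) :
    aeval JBridge.jHol (X - C w : ℂ[X]) = PlaceAt.jSub w := by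
  rw [map_sub, aeval_X, aeval_C]
  refine Hol.ext fun z => ?_
  rw [Hol.coe_sub, Pi.sub_apply, Hol.coe_algebraMap]
  rfl

theorem aeval_jHol_apply (P : ℂ[X]) (z : ℍ) :
    ((aeval JBridge.jHol P : Hol) : ℍ → ℂ) z = P.eval (jFun z) := by
  induction P using Polynomial.induction_on' with
  | add p q hp hq => rw [map_add, Hol.coe_add, Pi.add_apply, hp, hq, eval_add]
  | monomial n a =>
    rw [aeval_monomial, eval_monomial, Hol.coe_mul, Pi.mul_apply, Hol.coe_algebraMap]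
    congr 1

theorem ordNat_pow (z : ℍ) {f : Hol} (hf : f ≠ 0) (n : ℕ) :
    Hol.ordNat z (f ^ n) = n * Hol.ordNat z f := by
  induction n with
  | zero =>
    have : Hol.ordNat z 1 = 0 := by rw [Hol.ordNat, Hol.ordAt_one]; rfl
    simp [this]
  | succ n ih =>
    rw [pow_succ, Hol.ordNat_mul z (pow_ne_zero n hf) hf, ih]
    ring

/-! ### the level one theorem -/

/-- **Level one.**  An `SL(2,ℤ)`-invariant element of `Mer` which is meromorphic at `i∞` is a
rational function of `j`. -/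
theorem exists_poly_of_invariant {s : Mer} (hinv : ∀ δ : SL(2, ℤ), compMer δ s = s)
    (hcusp : s ∈ MerInf N) :
    ∃ P Q : ℂ[X], Q ≠ 0 ∧ s * toMer (aeval JBridge.jHol Q) = toMer (aeval JBridge.jHol P) := by
  classical
  rcases eq_or_ne s 0 with rfl | hs0
  · exact ⟨0, 1, one_ne_zero, by simp⟩
  obtain ⟨a, b, ha, hb, ha0, hb0, hab⟩ := MerInf.exists_rep N hcusp hs0
  obtain ⟨Y, hY⟩ := exists_im_forall_ne_zero N hb hb0
  set T : Finset ℍ := (finite_zeros_fd hb0 Y).toFinset with hT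
  let k : ℍ → ℕ := fun z => Hol.ordNat z b
  let Q : ℂ[X] := ∏ i ∈ T, (X - C (jFun i)) ^ k i
  have hQ0 : Q ≠ 0 := Finset.prod_ne_zero_iff.mpr fun i _ => pow_ne_zero _ (X_sub_C_ne_zero _)
  have hfac0 : ∀ i : ℍ, PlaceAt.jSub (jFun i) ^ k i ≠ 0 := fun i =>
    pow_ne_zero _ (PlaceAt.jSub_ne_zero _)
  have hQj : aeval JBridge.jHol Q = ∏ i ∈ T, PlaceAt.jSub (jFun i) ^ k i := by
    rw [map_prod]
    refine Finset.prod_congr rfl fun i _ => ?_
    rw [map_pow, aeval_jHol_X_sub_C]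
  set qH : Hol := ∏ i ∈ T, PlaceAt.jSub (jFun i) ^ k i with hqH
  have hqH0 : qH ≠ 0 := Finset.prod_ne_zero_iff.mpr fun i _ => hfac0 i
  -- no poles
  have hord : ∀ z : ℍ, 0 ≤ Mer.ordAt z (s * toMer qH) := by
    intro z
    rw [Mer.ordAt_mul z hs0 (toMer_ne_zero hqH0), Mer.ordAt_toMer z hqH0]
    obtain ⟨g, hg⟩ := ModularGroup.exists_smul_mem_fd z
    have h1 : Mer.ordAt z s = Mer.ordAt (g • z) s := by
      conv_lhs => rw [← hinv g]
      rw [PlaceAt.compMer_eq_comp, Mer.ordAt_comp]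
    rw [h1, hab, Mer.ordAt_div (g • z) ha0 hb0]
    by_cases hbz : (b : ℍ → ℂ) (g • z) = 0
    · have hmem : g • z ∈ T := by
        rw [hT, Set.Finite.mem_toFinset]
        refine ⟨hg, ?_, hbz⟩
        by_contra hlt
        exact hY _ (not_le.mp hlt).le hbz
      have h2 : k (g • z) ≤ Hol.ordNat z qH := by
        rw [hqH, ← Finset.mul_prod_erase T _ hmem,
          Hol.ordNat_mul z (hfac0 _) (Finset.prod_ne_zero_iff.mpr fun i _ => hfac0 i),
          ordNat_pow z (PlaceAt.jSub_ne_zero _)]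
        have h3 := one_le_ordNat_jSub (z := z) (z' := g • z) (jFun_smul g z).symm
        nlinarith
      have h4 : (k (g • z) : ℤ) = Hol.ordNat (g • z) b := rfl
      have h5 : (k (g • z) : ℤ) ≤ Hol.ordNat z qH := by exact_mod_cast h2
      have h6 : (0 : ℤ) ≤ Hol.ordNat (g • z) a := by positivity
      omega
    · have h2 : Hol.ordNat (g • z) b = 0 := (Hol.ordNat_eq_zero_iff _ hb0).mpr hbz
      rw [h2]
      have h6 : (0 : ℤ) ≤ Hol.ordNat (g • z) a := by positivity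
      have h7 : (0 : ℤ) ≤ Hol.ordNat z qH := by positivity
      simp only [Nat.cast_zero, sub_zero]
      omega
  obtain ⟨h, hh⟩ := Mer.exists_hol_of_ordAt_nonneg hord
  have hqinv : ∀ δ : SL(2, ℤ), compHol δ qH = qH := by
    intro δ
    rw [hqH, map_prod]
    refine Finset.prod_congr rfl fun i _ => ?_
    rw [map_pow, compHol_jSub]
  have hhinv : ∀ δ : SL(2, ℤ), compHol δ h = h := by
    intro δ
    apply toMer_injective
    rw [← compMer_toMer, hh, map_mul, hinv, compMer_toMer, hqinv]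
  have hqmem : qH ∈ HolInf N :=
    Subalgebra.prod_mem _ fun i _ => Subalgebra.pow_mem _ (jSub_mem_HolInf N _) _
  have hhmem : h ∈ HolInf N := by
    refine mem_HolInf_of_toMer_mem N (periodic_of_compHol_eq N hhinv) ?_
    rw [hh]
    exact mul_mem hcusp (toMer_mem_MerInf N hqmem)
  obtain ⟨P, hP⟩ := JPolyC.eq_polynomial_jFun (Hol.mdiff h)
    (fun γ z => by rw [← compHol_apply, hhinv]) (finGrowth_of_mem_HolInf N hhmem)
  refine ⟨P, Q, hQ0, ?_⟩
  rw [hQj, ← hh]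
  congr 1
  exact Hol.ext fun z => by rw [aeval_jHol_apply, hP]

end

end Fermat.Agent.S29.ModFunC
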