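import Mathlib
import Fermat.Agent.S29.ModFunC.BridgeFacts
import Fermat.Agent.S29.ModFunC.LevelOne
import Fermat.Agent.S29.ModFunC.DegreeBound
import Fermat.Agent.S18.Gauss.Concrete
import Fermat.Agent.S20.Psi

set_option autoImplicit false
set_option linter.unusedSectionVars false
set_option linter.style.haveILetI false

/-!
# S29 / (R3-MF), part 3: the converse bridge over `ℂ`

`PhiC N : FC N →+* Mer` is the bridge over `ℂ` (`FC N = laurentBaseChange ℂ (modularFunctionFieldFull N)`).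

**Theorem** (`mem_range_PhiC`).  An element `m` of `Mer` which is invariant under `Γ₀(N)` and all of
whose `SL(2,ℤ)`-translates are meromorphic at `i∞` (in `q_N`) lies in the range of `PhiC N`.
-/

namespace Fermat.Agent.S29.ModFunC

open scoped MatrixGroups
open UpperHalfPlane CongruenceSubgroup Polynomial IntermediateField ModularCurve
open Fermat.Agent.S20 Fermat.Agent.S24 Fermat.Agent.S24.PsiLe
open Fermat.Agent.S18.Gauss.Residue Fermat.Agent.S18.Gauss

noncomputable section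

variable (N : ℕ) [NeZero N]

/-- the function field of `X₀(N)` over `ℂ` -/
abbrev FC : Type := ↥(FK ℂ N)

/-- **the bridge over `ℂ`** -/
def PhiC : FC N →+* Mer := PhiK N (RingHom.id ℂ)

theorem PhiC_algebraMap (c : ℂ) : PhiC N (algebraMap ℂ (FC N) c) = algebraMap ℂ Mer c := by
  rw [PhiC, PhiK_algebraMap, RingHom.id_apply, ← IsScalarTower.algebraMap_apply ℂ Hol Mer]

theorem PhiC_JdK (d : ℕ) [NeZero d] (hd : d ∣ N) :
    PhiC N (JdK N d hd) = toMer (JBridge.jdHol d) := PhiK_JdK N _ d hd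

theorem compMer_PhiC {γ : SL(2, ℤ)} (hγ : γ ∈ Gamma0 N) (x : FC N) :
    compMer γ (PhiC N x) = PhiC N x := compMer_PhiK N _ hγ x

theorem compMer_PhiC_mem_MerInf (g : SL(2, ℤ)) (x : FC N) :
    compMer g (PhiC N x) ∈ MerInf N := compMer_PhiK_mem_MerInf N _ g x

theorem PhiC_injective : Function.Injective (PhiC N) := (PhiC N).injective

/-- the bridge as a `ℂ`-algebra homomorphism -/
def PhiCAlg : FC N →ₐ[ℂ] Mer :=
  { PhiC N with commutes' := PhiC_algebraMap N }

@[simp] theorem PhiCAlg_apply (x : FC N) : PhiCAlg N x = PhiC N x := rfl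

/-! ### the field of invariant functions meromorphic at all cusps -/

/-- the elements of `Mer` which are `Γ₀(N)`-invariant and meromorphic at all cusps -/
def invField : Subfield Mer where
  carrier := {m | (∀ γ ∈ Gamma0 N, compMer γ m = m) ∧ ∀ g : SL(2, ℤ), compMer g m ∈ MerInf N}
  mul_mem' := fun {x y} hx hy =>
    ⟨fun γ hγ => by rw [map_mul, hx.1 γ hγ, hy.1 γ hγ],
      fun g => by rw [map_mul]; exact mul_mem (hx.2 g) (hy.2 g)⟩
  one_mem' := ⟨fun γ _ => map_one _, fun g => by rw [map_one]; exact one_mem _⟩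
  add_mem' := fun {x y} hx hy =>
    ⟨fun γ hγ => by rw [map_add, hx.1 γ hγ, hy.1 γ hγ],
      fun g => by rw [map_add]; exact add_mem (hx.2 g) (hy.2 g)⟩
  zero_mem' := ⟨fun γ _ => map_zero _, fun g => by rw [map_zero]; exact zero_mem _⟩
  neg_mem' := fun {x} hx =>
    ⟨fun γ hγ => by rw [map_neg, hx.1 γ hγ],
      fun g => by rw [map_neg]; exact neg_mem (hx.2 g)⟩
  inv_mem' := fun x hx =>
    ⟨fun γ hγ => by rw [map_inv₀, hx.1 γ hγ],
      fun g => by rw [map_inv₀]; exact inv_mem (hx.2 g)⟩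

theorem mem_invField {m : Mer} : m ∈ invField N ↔
    (∀ γ ∈ Gamma0 N, compMer γ m = m) ∧ ∀ g : SL(2, ℤ), compMer g m ∈ MerInf N := Iff.rfl

theorem PhiC_mem_invField (x : FC N) : PhiC N x ∈ invField N :=
  ⟨fun _ hγ => compMer_PhiC N hγ x, fun g => compMer_PhiC_mem_MerInf N g x⟩

/-! ### conjugates of an invariant function -/

section conj

variable {N} {m : Mer} (hinv : ∀ γ ∈ Gamma0 N, compMer γ m = m)
include hinv

omit [NeZero N] in
theorem compMer_inv_eq_of_coset' (g g' : SL(2, ℤ)) (hgg : g⁻¹ * g' ∈ Gamma0 N) :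
    compMer g'⁻¹ m = compMer g⁻¹ m := by
  have e : g'⁻¹ = (g⁻¹ * g')⁻¹ * g⁻¹ := by group
  rw [e, ← PhiInvGen.compMer_compMer, hinv _ (inv_mem hgg)]

theorem compMer_out_inv_eq' (g : SL(2, ℤ)) :
    compMer (QuotientGroup.mk g : Q N).out⁻¹ m = compMer g⁻¹ m :=
  compMer_inv_eq_of_coset' hinv g _
    (QuotientGroup.eq.mp (QuotientGroup.out_eq' (QuotientGroup.mk g : Q N)).symm)

theorem compMer_inv_conj' (q : Q N) (δ : SL(2, ℤ)) :
    compMer δ⁻¹ (compMer q.out⁻¹ m) = compMer (δ • q).out⁻¹ m := by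
  have hq : δ • q = (QuotientGroup.mk (δ * q.out) : Q N) := by
    conv_lhs => rw [← QuotientGroup.out_eq' q]
    rfl
  rw [hq, compMer_out_inv_eq' hinv, PhiInvGen.compMer_compMer, mul_inv_rev]

end conj

/-- the "characteristic polynomial" `∏_c (X - m ∘ c⁻¹)` over the cosets of `Γ₀(N)` -/
def cPoly (m : Mer) : Mer[X] := ∏ c : Q N, (X - C (compMer c.out⁻¹ m))

theorem cPoly_monic (m : Mer) : (cPoly N m).Monic :=
  monic_prod_of_monic _ _ fun _ _ => monic_X_sub_C _

theorem cPoly_natDegree (m : Mer) : (cPoly N m).natDegree = dedekindPsi N := by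
  rw [cPoly, natDegree_prod_of_monic _ _ fun _ _ => monic_X_sub_C _]
  simp only [natDegree_X_sub_C, Finset.sum_const, Finset.card_univ, smul_eq_mul, mul_one]
  rw [← Nat.card_eq_fintype_card]
  exact card_quotient_Gamma0 N

section cPoly

variable {N} {m : Mer} (hinv : ∀ γ ∈ Gamma0 N, compMer γ m = m)
include hinv

theorem cPoly_map (δ : SL(2, ℤ)) : (cPoly N m).map (compMer δ⁻¹) = cPoly N m := by
  unfold cPoly
  rw [Polynomial.map_prod]
  simp only [Polynomial.map_sub, Polynomial.map_X, Polynomial.map_C, compMer_inv_conj' hinv]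
  exact Fintype.prod_equiv (MulAction.toPerm δ) _ _ fun c => rfl

theorem compMer_coeff_cPoly (δ : SL(2, ℤ)) (k : ℕ) :
    compMer δ ((cPoly N m).coeff k) = (cPoly N m).coeff k := by
  have h := cPoly_map hinv δ⁻¹
  rw [inv_inv] at h
  conv_rhs => rw [← h]
  rw [Polynomial.coeff_map]

theorem cPoly_eval : (cPoly N m).eval m = 0 := by
  unfold cPoly
  rw [eval_prod]
  apply Finset.prod_eq_zero (Finset.mem_univ (QuotientGroup.mk 1 : Q N))
  rw [eval_sub, eval_X, eval_C, compMer_out_inv_eq' hinv 1, inv_one, PhiInvGen.compMer_one,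
    sub_self]

end cPoly

theorem coeff_cPoly_mem {m : Mer} (hcusp : ∀ g : SL(2, ℤ), compMer g m ∈ MerInf N) (k : ℕ) :
    (cPoly N m).coeff k ∈ MerInf N := by
  have h : cPoly N m = (∏ c : Q N,
      (X - C (⟨compMer c.out⁻¹ m, hcusp _⟩ : MerInf N))).map (MerInf N).subtype := by
    unfold cPoly
    rw [Polynomial.map_prod]
    simp
  rw [h, Polynomial.coeff_map]
  exact Subtype.property _

/-! ### rational functions of `j` -/

/-- the element `j` of the function field (S18 spelling) -/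
abbrev JC : FC N := Jel (Concrete.jqModC_mem ℂ N)

theorem PhiC_JC : PhiC N (JC N) = toMer JBridge.jHol := by
  have h := PhiK_eq_of_coe_eq N (RingHom.id ℂ) 1 (one_dvd N) (JC N) (by
    show jqModC ℂ = coeffEmb ℂ (qExpand ℚ 1 jq)
    rw [qExpand_one_apply, Concrete.coeffEmb_jq])
  rw [JBridge.jdHol_one] at h
  exact h

theorem PhiC_aeval_JC (P : ℂ[X]) :
    PhiC N (aeval (JC N) P) = toMer (aeval JBridge.jHol P) := by
  have h1 := Polynomial.aeval_algHom_apply (PhiCAlg N) (JC N) P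
  rw [PhiCAlg_apply, PhiCAlg_apply, PhiC_JC] at h1
  rw [← h1]
  exact Polynomial.aeval_algebraMap_apply Mer JBridge.jHol P

theorem aeval_jHol_ne_zero {Q : ℂ[X]} (hQ : Q ≠ 0) : aeval JBridge.jHol Q ≠ 0 := by
  intro h
  apply hQ
  apply Polynomial.funext
  intro w
  obtain ⟨z, hz⟩ := jFun_surjective w
  have := congrFun (congrArg Subtype.val h) z
  rw [aeval_jHol_apply, hz] at this
  rw [this, eval_zero]
  rfl

/-- an `SL(2,ℤ)`-invariant function meromorphic at `i∞` is `PhiC` of an element of `ℂ(j)` -/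
theorem exists_mem_adjoin_of_invariant {s : Mer} (hinv : ∀ δ : SL(2, ℤ), compMer δ s = s)
    (hcusp : s ∈ MerInf N) : ∃ y : ℂ⟮JC N⟯, PhiC N (y : FC N) = s := by
  obtain ⟨P, Q, hQ0, hPQ⟩ := exists_poly_of_invariant N hinv hcusp
  have hmem : ∀ R : ℂ[X], aeval (JC N) R ∈ ℂ⟮JC N⟯ := fun R => by
    have h := Polynomial.aeval_algebraMap_apply (FC N) (AdjoinSimple.gen ℂ (JC N)) R
    rw [AdjoinSimple.algebraMap_gen] at h
    rw [h]
    exact Subtype.property _
  refine ⟨⟨aeval (JC N) P, hmem P⟩ / ⟨aeval (JC N) Q, hmem Q⟩, ?_⟩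
  have hv : toMer (aeval JBridge.jHol Q) ≠ 0 := toMer_ne_zero (aeval_jHol_ne_zero hQ0)
  show PhiC N (aeval (JC N) P / aeval (JC N) Q) = s
  rw [map_div₀, PhiC_aeval_JC, PhiC_aeval_JC, ← hPQ, mul_div_assoc, div_self hv, mul_one]

/-! ### the converse -/

/-- `Mer` as an algebra over `ℂ(j)` through the bridge -/
@[reducible] def algebraAdjoinMer : Algebra ℂ⟮JC N⟯ Mer :=
  ((PhiC N).comp (algebraMap ℂ⟮JC N⟯ (FC N))).toAlgebra

/-- **The converse bridge.**  A `Γ₀(N)`-invariant element of `Mer` all of whose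
`SL(2,ℤ)`-translates are meromorphic at `i∞` comes from the function field of `X₀(N)` over `ℂ`. -/
theorem mem_range_PhiC {m : Mer} (hinv : ∀ γ ∈ Gamma0 N, compMer γ m = m)
    (hcusp : ∀ g : SL(2, ℤ), compMer g m ∈ MerInf N) : m ∈ (PhiC N).range := by
  letI : Algebra ℂ⟮JC N⟯ Mer := algebraAdjoinMer N
  have hfd : FiniteDimensional ℂ⟮JC N⟯ (FC N) := Concrete.finiteDimensional ℂ N
  have hrank : Module.finrank ℂ⟮JC N⟯ (FC N) = dedekindPsi N := Concrete.finrank_eq_psi ℂ N
  let Φ : FC N →ₐ[ℂ⟮JC N⟯] Mer := { PhiC N with commutes' := fun _ => rfl }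
  let E : IntermediateField ℂ⟮JC N⟯ Mer :=
    (invField N).toIntermediateField (fun y => PhiC_mem_invField N (y : FC N))
  have hΦE : ∀ f, Φ f ∈ E := fun f => PhiC_mem_invField N f
  have hE : ∀ x ∈ E, ∃ p : (ℂ⟮JC N⟯)[X],
      p ≠ 0 ∧ p.natDegree ≤ Module.finrank ℂ⟮JC N⟯ (FC N) ∧ aeval x p = 0 := by
    intro x hx
    have hx' : x ∈ invField N := hx
    obtain ⟨hxinv, hxcusp⟩ := hx'
    have hlifts : cPoly N x ∈ Polynomial.lifts (algebraMap ℂ⟮JC N⟯ Mer) := by
      rw [Polynomial.lifts_iff_coeff_lifts]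
      intro k
      obtain ⟨y, hy⟩ := exists_mem_adjoin_of_invariant N
        (fun δ => compMer_coeff_cPoly hxinv δ k) (coeff_cPoly_mem N hxcusp k)
      exact ⟨y, hy⟩
    obtain ⟨p0, hp0map, hp0deg, hp0monic⟩ :=
      Polynomial.lifts_and_degree_eq_and_monic hlifts (cPoly_monic N x)
    refine ⟨p0, hp0monic.ne_zero, ?_, ?_⟩
    · rw [hrank, ← cPoly_natDegree N x]
      exact le_of_eq (natDegree_eq_natDegree hp0deg)
    · rw [Polynomial.aeval_def, Polynomial.eval₂_eq_eval_map, hp0map]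
      exact cPoly_eval hxinv
  obtain ⟨f, hf⟩ := DegreeBound.mem_range_of_squeeze Φ E hΦE hE (x := m) ⟨hinv, hcusp⟩
  exact ⟨f, hf⟩

/-- the range of the bridge over `ℂ` is exactly the field of `Γ₀(N)`-invariant functions which are
meromorphic at all cusps. -/
theorem mem_range_PhiC_iff (m : Mer) : m ∈ (PhiC N).range ↔
    (∀ γ ∈ Gamma0 N, compMer γ m = m) ∧ ∀ g : SL(2, ℤ), compMer g m ∈ MerInf N := by
  constructor
  · rintro ⟨x, rfl⟩
    exact PhiC_mem_invField N x
  · rintro ⟨h1, h2⟩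
    exact mem_range_PhiC N h1 h2

end

end Fermat.Agent.S29.ModFunC
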