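import Mathlib
import Fermat.Agent.S29.ModFunC.Converse
import Fermat.Agent.S29.Analytic.RootCusp

set_option autoImplicit false
set_option linter.unusedSectionVars false

/-!
# S29 / (R3-MF): the (MF) exports in the shapes consumed downstream

For `Φ := PhiC N` the five (MF) fields of `Kummer.ClassMapC.Blocks` (`phi_const`, `phi_inv`,
`phi_cusp`, `conv`, `root`), of `Hk.Equivariant.Bridge` (`rho_Phi`, `conv`) and the `hC` of
`Desc.KummerFinite` — verbatim, so that they can be plugged in with `exact`.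
-/

namespace Fermat.Agent.S29.ModFunC

open scoped MatrixGroups
open UpperHalfPlane CongruenceSubgroup
open Fermat.Agent.S24 Fermat.Agent.S24.PsiLe

noncomputable section

variable (N : ℕ) [NeZero N]

/-- `Blocks.phi_const` -/
theorem blocks_phi_const (a : ℂ) : PhiC N (algebraMap ℂ (FC N) a) = algebraMap ℂ Mer a :=
  PhiC_algebraMap N a

/-- `Blocks.phi_inv` -/
theorem blocks_phi_inv (γ : Gamma0 N) (f : FC N) :
    compMer (γ : SL(2, ℤ)) (PhiC N f) = PhiC N f :=
  compMer_PhiC N γ.2 f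

/-- `Blocks.phi_cusp` -/
theorem blocks_phi_cusp (g : SL(2, ℤ)) (f : FC N) : compMer g (PhiC N f) ∈ MerInf N :=
  compMer_PhiC_mem_MerInf N g f

/-- `Blocks.conv` -/
theorem blocks_conv (m : Mer) (hinv : ∀ γ : Gamma0 N, compMer (γ : SL(2, ℤ)) m = m)
    (hcusp : ∀ g : SL(2, ℤ), compMer g m ∈ MerInf N) : ∃ f : FC N, PhiC N f = m :=
  mem_range_PhiC N (fun γ hγ => hinv ⟨γ, hγ⟩) hcusp

/-- **roots**: a `Γ₀(N)`-invariant `n`-th root of an element of the image of the bridge is in the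
image (`n ≥ 1`). -/
theorem root_mem_range_PhiC {n : ℕ} (hn : 0 < n) {y : Mer}
    (hinv : ∀ γ ∈ Gamma0 N, compMer γ y = y) {f : FC N} (h : y ^ n = PhiC N f) :
    y ∈ (PhiC N).range := by
  refine mem_range_PhiC N hinv ?_
  refine Analytic.RootCusp.forall_mem_MerInf_of_pow N hn hinv fun g => ?_
  rw [h]
  exact compMer_PhiC_mem_MerInf N g f

/-- `Blocks.root` (and `Hk.Equivariant.Bridge.conv`, `Desc.KummerFinite` `hC`) -/
theorem blocks_root {p : ℕ} (hp : 0 < p) (y : Mer)
    (hinv : ∀ γ : Gamma0 N, compMer (γ : SL(2, ℤ)) y = y)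
    (h : ∃ f : FC N, y ^ p = PhiC N f) : ∃ w : FC N, PhiC N w = y := by
  obtain ⟨f, hf⟩ := h
  exact root_mem_range_PhiC N hp (fun γ hγ => hinv ⟨γ, hγ⟩) hf

end

end Fermat.Agent.S29.ModFunC
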