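import Mathlib
import Fermat.Prelude.Def_ModularCurve_HeckeOperator
import Fermat.Prelude.Def_ModularForm_HeckeOperator
import Fermat.Agent.S29.ModFunC.BridgeFacts
import Fermat.Agent.S29.Hk.CompGL

set_option autoImplicit false

/-!
# S29 / (R3-MF, Hk): compatibility of the bridges of levels `N` and `N ℓ`

For the two degeneracy maps `α, β : F_K(N) → F_K(N ℓ)` (`α` = inclusion, `β` = `q ↦ q ^ ℓ`):
`Φ_{Nℓ} ∘ α = Φ_N` and `Φ_{Nℓ} ∘ β = (Φ_N ·)(ℓ z)`.  These are the hypotheses `hα`, `hβ` of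
`Hk.NormHecke.map_norm_beta_eq_prod`.
-/

namespace Fermat.Agent.S29.ModFunC.CrossLevel

open scoped MatrixGroups
open IntermediateField UpperHalfPlane ModularCurve ModularForm
open Fermat.Agent.S24 Fermat.Agent.S24.PsiLe Fermat.Agent.S24.JBridge
open Fermat.Agent.S29.ModFunC Fermat.Agent.S29.Hk.CompGL

noncomputable section

variable {K : Type*} [Field K] [Algebra ℚ K]

/-- coefficientwise maps commute with `q ↦ q ^ n`. -/
theorem coeffMap_qExpand_aux {R S : Type*} [CommRing R] [CommRing S] (f : R →+* S) (n : ℕ)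
    [NeZero n] (x : LaurentSeries R) : coeffMap f (qExpand R n x) = qExpand S n (coeffMap f x) := by
  ext k
  by_cases hk : (n : ℤ) ∣ k
  · obtain ⟨m, rfl⟩ := hk
    rw [coeffMap_coeff, qExpand_coeff_mul, qExpand_coeff_mul, coeffMap_coeff]
  · rw [coeffMap_coeff, qExpand_coeff_of_not_dvd n _ hk, qExpand_coeff_of_not_dvd n _ hk,
      map_zero]

/-- **Extensionality** for ring homomorphisms out of `F_K(N)`: they are determined by their values
on the constants and on the generators `j(q^d)`, `d ∣ N`. -/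
theorem ringHom_ext_FK (N : ℕ) {Ω : Type*} [Field Ω] (σ τ : ↥(FK K N) →+* Ω)
    (hK : ∀ a : K, σ (algebraMap K ↥(FK K N) a) = τ (algebraMap K ↥(FK K N) a))
    (hgen : ∀ (d : ℕ) (_ : NeZero d) (hd : d ∣ N), σ (JdK N d hd) = τ (JdK N d hd)) :
    σ = τ := by
  refine RingHom.ext fun x => ?_
  have hx : x ∈ IntermediateField.adjoin K (gensK K N) := by
    rw [adjoin_gensK_eq_top]; trivial
  induction hx using IntermediateField.adjoin_induction with
  | mem y hy =>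
    obtain ⟨d, hne, hd, rfl⟩ := hy
    exact hgen d hne hd
  | algebraMap a => exact hK a
  | add x y _ _ h₁ h₂ => rw [map_add, map_add, h₁, h₂]
  | inv x _ h => rw [map_inv₀, map_inv₀, h]
  | mul x y _ _ h₁ h₂ => rw [map_mul, map_mul, h₁, h₂]

variable (N ℓ : ℕ) [NeZero N] [NeZero ℓ] (ι : K →+* ℂ)

/-- **`Φ_{Nℓ} ∘ α = Φ_N`.** -/
theorem PhiK_heckeAlphaBar (x : ↥(FK K N)) :
    PhiK (N * ℓ) ι (heckeAlphaBar K N ℓ x) = PhiK N ι x := by
  have h : (PhiK (N * ℓ) ι).comp (heckeAlphaBar K N ℓ).toRingHom = PhiK N ι := by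
    refine ringHom_ext_FK N _ _ (fun a => ?_) (fun d hne hd => ?_)
    · show PhiK (N * ℓ) ι (heckeAlphaBar K N ℓ (algebraMap K ↥(FK K N) a)) = _
      rw [AlgHom.commutes, PhiK_algebraMap, PhiK_algebraMap]
    · have := hne
      show PhiK (N * ℓ) ι (heckeAlphaBar K N ℓ (JdK N d hd)) = _
      rw [PhiK_JdK]
      exact PhiK_eq_of_coe_eq (N * ℓ) ι d (hd.mul_right ℓ) _ (by rw [coe_heckeAlphaBar]; rfl)
  exact congrArg (fun φ : ↥(FK K N) →+* Mer => φ x) h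

omit [NeZero ℓ] in
/-- `j(d · ℓ z) = j((ℓ d) z)` -/
theorem compHolGL_jdHol (hℓ0 : ℓ ≠ 0) (d : ℕ) [NeZero d] :
    haveI : NeZero (ℓ * d) := ⟨mul_ne_zero hℓ0 (NeZero.ne d)⟩
    compHolGL (heckeDiagMatrix ℓ) (det_heckeDiagMatrix_pos ℓ) (jdHol d) = jdHol (ℓ * d) := by
  have : NeZero (ℓ * d) := ⟨mul_ne_zero hℓ0 (NeZero.ne d)⟩
  refine Hol.ext fun z => ?_
  rw [compHolGL_apply]
  have hw : ((mulH d (heckeDiagMatrix ℓ • z) : ℍ) : ℂ) = ((ℓ * d : ℕ) : ℂ) * z := by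
    have h1 : ((mulH d (heckeDiagMatrix ℓ • z) : ℍ) : ℂ) = (d : ℂ) * ((heckeDiagMatrix ℓ • z : ℍ) : ℂ) :=
      rfl
    rw [h1, coe_heckeDiagMatrix_smul hℓ0]
    push_cast
    ring
  rw [jdHol_apply, jdHol_apply_of_eq (ℓ * d) z _ hw]

/-- **`Φ_{Nℓ} ∘ β = (Φ_N ·)(ℓ z)`.** -/
theorem PhiK_heckeBetaBar (hℓ0 : ℓ ≠ 0) (x : ↥(FK K N)) :
    PhiK (N * ℓ) ι (heckeBetaBar K N ℓ x) =
      compMerGL (heckeDiagMatrix ℓ) (det_heckeDiagMatrix_pos ℓ) (PhiK N ι x) := by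
  have h : (PhiK (N * ℓ) ι).comp (heckeBetaBar K N ℓ).toRingHom =
      (compMerGL (heckeDiagMatrix ℓ) (det_heckeDiagMatrix_pos ℓ)).comp (PhiK N ι) := by
    refine ringHom_ext_FK N _ _ (fun a => ?_) (fun d hne hd => ?_)
    · show PhiK (N * ℓ) ι (heckeBetaBar K N ℓ (algebraMap K ↥(FK K N) a)) =
        compMerGL _ _ (PhiK N ι (algebraMap K ↥(FK K N) a))
      rw [AlgHom.commutes, PhiK_algebraMap, PhiK_algebraMap, compMerGL_algebraMap]
      congr 1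
    · have := hne
      have : NeZero (ℓ * d) := ⟨mul_ne_zero hℓ0 (NeZero.ne d)⟩
      show PhiK (N * ℓ) ι (heckeBetaBar K N ℓ (JdK N d hd)) =
        compMerGL _ _ (PhiK N ι (JdK N d hd))
      rw [PhiK_JdK, compMerGL_algebraMap, compHolGL_jdHol ℓ hℓ0 d]
      have hdvd : ℓ * d ∣ N * ℓ := by
        rw [mul_comm ℓ d]
        exact Nat.mul_dvd_mul hd (dvd_refl ℓ)
      refine PhiK_eq_of_coe_eq (N * ℓ) ι (ℓ * d) hdvd _ ?_
      rw [coe_heckeBetaBar]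
      show qExpand K ℓ (coeffEmb K (qExpand ℚ d jq)) = coeffEmb K (qExpand ℚ (ℓ * d) jq)
      rw [coeffEmb, ← coeffMap_qExpand_aux, qExpand_qExpand]
  exact congrArg (fun φ : ↥(FK K N) →+* Mer => φ x) h

/-- the same with an arbitrary proof of positivity of the determinant (the shape of `hβ` in
`Hk.NormHecke.map_norm_beta_eq_prod`). -/
theorem PhiK_heckeBetaBar' (hℓ0 : ℓ ≠ 0) (hA : 0 < (heckeDiagMatrix ℓ).det.val) (x : ↥(FK K N)) :
    PhiK (N * ℓ) ι (heckeBetaBar K N ℓ x) =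
      compMerGL (heckeDiagMatrix ℓ) hA (PhiK N ι x) :=
  PhiK_heckeBetaBar N ℓ ι hℓ0 x

end

end Fermat.Agent.S29.ModFunC.CrossLevel
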