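import Mathlib
import Fermat.Agent.S29.ModFunC.CrossLevel
import Fermat.Agent.S29.ModFunC.Converse
import Fermat.Agent.S29.Hk.CompGLAdapter

set_option autoImplicit false

/-!
# S29 / (Hk), leaf (X): the cross-level hypotheses `hα`, `hβ` of the norm formula, over `ℂ`

Exactly the spelling consumed by `Hk.CompGLAdapter.map_norm_beta_eq_prod` at
`Φ = PhiC N`, `Φ' = PhiC (N * ℓ)`, `α = heckeAlphaBar ℂ N ℓ`, `β = heckeBetaBar ℂ N ℓ`.
-/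

namespace Fermat.Agent.S29.ModFunC.CrossLevelC

open ModularCurve ModularForm
open Fermat.Agent.S24 Fermat.Agent.S29.ModFunC Fermat.Agent.S29.Hk

variable (N ℓ : ℕ) [NeZero N] [NeZero ℓ]

/-- **(X, `hα`)**: `PhiC (N ℓ) ∘ α = PhiC N`. -/
theorem hα (x : FC N) : PhiC (N * ℓ) (heckeAlphaBar ℂ N ℓ x) = PhiC N x :=
  CrossLevel.PhiK_heckeAlphaBar N ℓ (RingHom.id ℂ) x

/-- **(X, `hβ`)**: `PhiC (N ℓ) ∘ β = (PhiC N ·)(ℓ z)`, in the `MerHecke` spelling. -/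
theorem hβ (hℓ0 : ℓ ≠ 0) (x : FC N) :
    PhiC (N * ℓ) (heckeBetaBar ℂ N ℓ x) =
      MerHecke.compMerGL (heckeDiagMatrix ℓ) (NormHecke.det_heckeDiagMatrix_pos hℓ0)
        (PhiC N x) := by
  rw [← CompGLAdapter.compMerGL_apply_eq]
  exact CrossLevel.PhiK_heckeBetaBar' N ℓ (RingHom.id ℂ) hℓ0 _ x

/-- `hβ` in the `CompGL` spelling (the one of `Hk.NormHecke.map_norm_beta_eq_prod`). -/
theorem hβ' (hℓ0 : ℓ ≠ 0) (x : FC N) :
    PhiC (N * ℓ) (heckeBetaBar ℂ N ℓ x) =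
      CompGL.compMerGL (heckeDiagMatrix ℓ) (NormHecke.det_heckeDiagMatrix_pos hℓ0)
        (PhiC N x) :=
  CrossLevel.PhiK_heckeBetaBar' N ℓ (RingHom.id ℂ) hℓ0 _ x

end Fermat.Agent.S29.ModFunC.CrossLevelC
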