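import Mathlib
import Fermat.Agent.S29.ModFunC.Converse
import Fermat.Agent.S29.Dict.BridgeInvC

set_option autoImplicit false
set_option linter.unusedSectionVars false

/-!
# S29 / (R3-MF): the bridge `PhiC N` over `ℂ` satisfies the `IsBridge` predicate of `(Dict)`

Glue between `ModFunC` (construction of the bridge + its converse) and `Dict` (the place/point
dictionary, stated for an arbitrary `Φ` with `IsBridge N Φ`).
-/

namespace Fermat.Agent.S29.ModFunC

open scoped MatrixGroups
open UpperHalfPlane CongruenceSubgroup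
open Fermat.Agent.S24 Fermat.Agent.S24.PsiLe Fermat.Agent.S29.Dict

noncomputable section

variable (N : ℕ) [NeZero N]

/-- `Dict`'s `FF N` is `FC N`. -/
theorem FF_eq_FC : BridgeInvC.FF N = FC N := rfl

/-- `Dict`'s generator `Jd` is `JdK`. -/
theorem Jd_eq_JdK (d : ℕ) [NeZero d] (hd : d ∣ N) :
    BridgeInvC.Jd N d hd = JdK (K := ℂ) N d hd := rfl

/-- **the bridge over `ℂ` is a bridge in the sense of `(Dict)`.** -/
theorem isBridge_PhiC : BridgeInvC.IsBridge N (PhiC N) where
  const a := ⟨a, by
    show PhiK N (RingHom.id ℂ) (algebraMap ℂ (FC N) a) = _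
    rw [PhiK_algebraMap, RingHom.id_apply]⟩
  gen d hne hd := by
    have := hne
    exact ⟨JBridge.jdHol d, PhiK_JdK N (RingHom.id ℂ) d hd,
      fun z w h => JBridge.jdHol_apply_of_eq d z w h⟩

/-- the constants of `PhiC` hit every complex number (needed by `Dict.exists_place_ordAt`). -/
theorem PhiC_const_surj (c : ℂ) :
    ∃ a : ℂ, PhiC N (algebraMap ℂ (BridgeInvC.FF N) a) = algebraMap ℂ Mer c :=
  ⟨c, PhiC_algebraMap N c⟩

/-- the converse, in the `hconv` shape of `Desc.FiniteTorsionC.finite_torsion_of_bridge`. -/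
theorem hconv_PhiC (m : Mer) (hinv : ∀ γ ∈ Gamma0 N, compMer γ m = m)
    (hcusp : ∀ g : SL(2, ℤ), compMer g m ∈ MerInf N) : m ∈ (PhiC N).range :=
  mem_range_PhiC N hinv hcusp

end

end Fermat.Agent.S29.ModFunC
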