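import Mathlib

/-!
# Fields of bounded degree

If every element of a field extension `M/k` (characteristic zero) is algebraic of degree `≤ n`,
then `[M : k] ≤ n`.  Consequently an intermediate field `F` with `[F : k] = n` is everything.
Used for the converse of the modular-function bridge: the field of `Γ₀(N)`-invariant meromorphic
functions (meromorphic at the cusps) has degree `≤ ψ(N)` over `ℂ(j)`, hence equals `F_ℂ`.
-/

set_option autoImplicit false
set_option linter.style.haveILetI false

open IntermediateField Polynomial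

namespace Fermat.Agent.S29.ModFunC.BoundedDegree

variable {k M : Type*} [Field k] [Field M] [Algebra k M] [CharZero k]

/-- A simple extension generated by an element of maximal degree is everything. -/
theorem adjoin_eq_top_of_maximal (hint : ∀ x : M, IsIntegral k x) (x₀ : M)
    (hmax : ∀ y : M, (minpoly k y).natDegree ≤ (minpoly k x₀).natDegree) : k⟮x₀⟯ = ⊤ := by
  haveI : Algebra.IsAlgebraic k M := ⟨fun x => (hint x).isAlgebraic⟩
  haveI : Algebra.IsSeparable k M := Algebra.IsAlgebraic.isSeparable_of_perfectField
  rw [eq_top_iff]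
  intro y _
  haveI h1 : FiniteDimensional k k⟮x₀⟯ := adjoin.finiteDimensional (hint x₀)
  haveI h2 : FiniteDimensional k k⟮y⟯ := adjoin.finiteDimensional (hint y)
  set K' : IntermediateField k M := k⟮x₀⟯ ⊔ k⟮y⟯ with hK'
  haveI : FiniteDimensional k K' := IntermediateField.finiteDimensional_sup _ _
  obtain ⟨z, hz⟩ := Field.exists_primitive_element k K'
  have hzint : IsIntegral k z := Algebra.IsIntegral.isIntegral z
  have hfin : Module.finrank k K' = (minpoly k z).natDegree := by
    have h := IntermediateField.adjoin.finrank hzint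
    rw [hz] at h
    rw [← h]
    exact (IntermediateField.topEquiv (F := k) (E := K')).toLinearEquiv.finrank_eq.symm
  have hzM : minpoly k (z : M) = minpoly k z := minpoly.algebraMap_eq (algebraMap K' M).injective z
  have hle : Module.finrank k K' ≤ Module.finrank k k⟮x₀⟯ := by
    rw [hfin, IntermediateField.adjoin.finrank (hint x₀), ← hzM]
    exact hmax z
  have hsub : k⟮x₀⟯ ≤ K' := le_sup_left
  have heq : k⟮x₀⟯ = K' := IntermediateField.eq_of_le_of_finrank_le hsub hle
  rw [heq]
  exact (le_sup_right : k⟮y⟯ ≤ K') (mem_adjoin_simple_self k y)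

/-- **Bounded degree implies finite of bounded rank.** -/
theorem finrank_le_of_forall_natDegree_le (n : ℕ)
    (h : ∀ x : M, IsIntegral k x ∧ (minpoly k x).natDegree ≤ n) :
    FiniteDimensional k M ∧ Module.finrank k M ≤ n := by
  classical
  have hint : ∀ x : M, IsIntegral k x := fun x => (h x).1
  -- an element of maximal degree
  have hex : ∃ x₀ : M, ∀ y : M, (minpoly k y).natDegree ≤ (minpoly k x₀).natDegree := by
    set S : Set ℕ := Set.range fun x : M => (minpoly k x).natDegree with hS
    have hne : S.Nonempty := ⟨_, ⟨0, rfl⟩⟩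
    have hbdd : BddAbove S := ⟨n, by rintro _ ⟨x, rfl⟩; exact (h x).2⟩
    obtain ⟨x₀, hx₀⟩ := Nat.sSup_mem hne hbdd
    have hx₀' : (minpoly k x₀).natDegree = sSup S := hx₀
    exact ⟨x₀, fun y => by rw [hx₀']; exact le_csSup hbdd ⟨y, rfl⟩⟩
  obtain ⟨x₀, hmax⟩ := hex
  have htop := adjoin_eq_top_of_maximal hint x₀ hmax
  haveI hfd : FiniteDimensional k k⟮x₀⟯ := adjoin.finiteDimensional (hint x₀)
  have e : (⊤ : IntermediateField k M) ≃ₗ[k] M :=
    (IntermediateField.topEquiv (F := k) (E := M)).toLinearEquiv
  have hfdM : FiniteDimensional k M := by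
    rw [htop] at hfd
    exact e.finiteDimensional
  refine ⟨hfdM, ?_⟩
  have h1 : Module.finrank k M = Module.finrank k k⟮x₀⟯ := by
    rw [htop]
    exact e.finrank_eq.symm
  rw [h1, IntermediateField.adjoin.finrank (hint x₀)]
  exact (h x₀).2

/-- An intermediate field of rank `n` inside an intermediate field all of whose elements have
degree `≤ n` is equal to it. -/
theorem eq_of_le_of_forall_natDegree_le {F S : IntermediateField k M} (hFS : F ≤ S) (n : ℕ)
    [FiniteDimensional k F] (hF : Module.finrank k F = n)
    (hS : ∀ x ∈ S, IsIntegral k x ∧ (minpoly k x).natDegree ≤ n) : F = S := by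
  have hS' : ∀ x : S, IsIntegral k x ∧ (minpoly k x).natDegree ≤ n := by
    intro x
    obtain ⟨h1, h2⟩ := hS x x.2
    have hmin : minpoly k (x : M) = minpoly k x :=
      minpoly.algebraMap_eq (algebraMap S M).injective x
    refine ⟨?_, by rw [← hmin]; exact h2⟩
    exact (isIntegral_algebraMap_iff (algebraMap S M).injective).mp h1
  obtain ⟨hfd, hle⟩ := finrank_le_of_forall_natDegree_le (k := k) (M := S) n hS'
  haveI := hfd
  exact IntermediateField.eq_of_le_of_finrank_le hFS (by rw [hF]; exact hle)

/-- Ring-hom form: `F`, `M` fields over `k`, `φ : F →ₐ[k] M`, `[F : k] = n`, and `S ⊇ φ(F)` an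
intermediate field all of whose elements have degree `≤ n` over `k`: then `S = φ(F)`. -/
theorem fieldRange_eq_of_forall_natDegree_le {F : Type*} [Field F] [Algebra k F]
    [FiniteDimensional k F] (φ : F →ₐ[k] M) (n : ℕ) (hF : Module.finrank k F = n)
    (S : IntermediateField k M) (hφS : φ.fieldRange ≤ S)
    (hS : ∀ x ∈ S, IsIntegral k x ∧ (minpoly k x).natDegree ≤ n) : φ.fieldRange = S := by
  let e : F ≃ₐ[k] φ.fieldRange := AlgEquiv.ofInjectiveField φ
  haveI : FiniteDimensional k φ.fieldRange := e.toLinearEquiv.finiteDimensional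
  have hr : Module.finrank k φ.fieldRange = n := by
    rw [← hF]
    exact e.toLinearEquiv.finrank_eq.symm
  exact eq_of_le_of_forall_natDegree_le hφS n hr hS

end Fermat.Agent.S29.ModFunC.BoundedDegree
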