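import Mathlib
import Fermat.Agent.S24.BridgeInv
import Fermat.Agent.S24.CuspMer
import Fermat.Agent.S20.Psi

set_option autoImplicit false

/-!
# The coset polynomial of a `Γ₀(N)`-invariant meromorphic function (block (MF) of project R)

For `m : Mer` invariant under `Γ₀(N)` the polynomial `∏_{q ∈ SL₂(ℤ)/Γ₀(N)} (X - m ∘ g_q⁻¹)` is
monic of degree `ψ(N)`, has `m` as a root, and its coefficients are `SL₂(ℤ)`-invariant; they lie in
`MerInf N` as soon as all `SL₂(ℤ)`-translates of `m` do.
-/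

namespace Fermat.Agent.S29.ModFunC.CosetPoly

open scoped MatrixGroups
open UpperHalfPlane CongruenceSubgroup Polynomial
open Fermat.Agent.S20 Fermat.Agent.S24 Fermat.Agent.S24.PsiLe Fermat.Agent.S24.BridgeInv

noncomputable section

variable {N : ℕ} {m : Mer}

/-- the conjugate `m ∘ g⁻¹` attached to the coset `q = g Γ₀(N)` -/
def conj (N : ℕ) (m : Mer) (q : Q N) : Mer := compMer q.out⁻¹ m

theorem compMer_inv_mul (hm : ∀ γ : SL(2, ℤ), γ ∈ Gamma0 N → compMer γ m = m)
    (g γ : SL(2, ℤ)) (hγ : γ ∈ Gamma0 N) : compMer (g * γ)⁻¹ m = compMer g⁻¹ m := by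
  rw [mul_inv_rev, compMer_mul, hm γ⁻¹ (inv_mem hγ)]

theorem conj_mk (hm : ∀ γ : SL(2, ℤ), γ ∈ Gamma0 N → compMer γ m = m) (g : SL(2, ℤ)) :
    conj N m (QuotientGroup.mk g : Q N) = compMer g⁻¹ m := by
  obtain ⟨h, hh⟩ := QuotientGroup.mk_out_eq_mul (Gamma0 N) g
  show compMer (QuotientGroup.mk g : Q N).out⁻¹ m = _
  rw [hh]
  exact compMer_inv_mul hm g h h.2

theorem conj_one (hm : ∀ γ : SL(2, ℤ), γ ∈ Gamma0 N → compMer γ m = m) :
    conj N m (QuotientGroup.mk 1 : Q N) = m := by
  rw [conj_mk hm, inv_one, compMer_one]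

/-- translation law: `(conj m q) ∘ δ⁻¹ = conj m (δ • q)`. -/
theorem compMer_conj (hm : ∀ γ : SL(2, ℤ), γ ∈ Gamma0 N → compMer γ m = m)
    (δ : SL(2, ℤ)) (q : Q N) : compMer δ⁻¹ (conj N m q) = conj N m (δ • q) := by
  induction q using QuotientGroup.induction_on with
  | H g =>
    have : δ • (QuotientGroup.mk g : Q N) = QuotientGroup.mk (δ * g) := rfl
    rw [this, conj_mk hm, conj_mk hm, mul_inv_rev, compMer_mul]

variable [NeZero N]

/-- the coset polynomial -/
def cosetPoly (N : ℕ) [NeZero N] (m : Mer) : Polynomial Mer := ∏ q : Q N, (X - C (conj N m q))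

theorem cosetPoly_monic (m : Mer) : (cosetPoly N m).Monic :=
  monic_prod_of_monic _ _ fun q _ => monic_X_sub_C (conj N m q)

theorem natDegree_cosetPoly (m : Mer) :
    (cosetPoly N m).natDegree = ModularCurve.dedekindPsi N := by
  unfold cosetPoly
  rw [natDegree_prod_of_monic _ _ fun q _ => monic_X_sub_C (conj N m q)]
  simp only [natDegree_X_sub_C, Finset.sum_const, Finset.card_univ, smul_eq_mul, mul_one]
  rw [← Nat.card_eq_fintype_card]
  exact card_quotient_Gamma0 N

theorem eval_cosetPoly (hm : ∀ γ : SL(2, ℤ), γ ∈ Gamma0 N → compMer γ m = m) :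
    (cosetPoly N m).eval m = 0 := by
  unfold cosetPoly
  rw [eval_prod]
  apply Finset.prod_eq_zero (Finset.mem_univ (QuotientGroup.mk 1 : Q N))
  rw [eval_sub, eval_X, eval_C, conj_one hm, sub_self]

/-- the coset polynomial is fixed by every `compMer δ` -/
theorem map_cosetPoly (hm : ∀ γ : SL(2, ℤ), γ ∈ Gamma0 N → compMer γ m = m) (δ : SL(2, ℤ)) :
    (cosetPoly N m).map (compMer δ) = cosetPoly N m := by
  unfold cosetPoly
  rw [Polynomial.map_prod]
  have h1 : ∀ q : Q N, (X - C (conj N m q)).map (compMer δ) = X - C (conj N m (δ⁻¹ • q)) := by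
    intro q
    rw [Polynomial.map_sub, Polynomial.map_X, Polynomial.map_C]
    have := compMer_conj hm δ⁻¹ q
    rw [inv_inv] at this
    rw [this]
  simp_rw [h1]
  exact Fintype.prod_equiv (MulAction.toPerm δ⁻¹) _ _ fun q => rfl

theorem compMer_coeff (hm : ∀ γ : SL(2, ℤ), γ ∈ Gamma0 N → compMer γ m = m) (δ : SL(2, ℤ))
    (k : ℕ) : compMer δ ((cosetPoly N m).coeff k) = (cosetPoly N m).coeff k := by
  conv_rhs => rw [← map_cosetPoly hm δ]
  rw [Polynomial.coeff_map]

/-- coefficients of a product of `X - C a` with all `a` in a subfield lie in the subfield -/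
theorem coeff_prod_X_sub_C_mem {ι : Type*} (s : Finset ι) (K : Subfield Mer) (a : ι → Mer)
    (ha : ∀ i ∈ s, a i ∈ K) (k : ℕ) : (∏ i ∈ s, (X - C (a i))).coeff k ∈ K := by
  classical
  have h : (∏ i ∈ s, (X - C (a i)))
      = (∏ i ∈ s.attach, (X - C (⟨a i.1, ha i.1 i.2⟩ : K))).map K.subtype := by
    rw [Polynomial.map_prod, ← Finset.prod_attach s]
    refine Finset.prod_congr rfl fun i _ => ?_
    rw [Polynomial.map_sub, Polynomial.map_X, Polynomial.map_C]
    rfl
  rw [h, Polynomial.coeff_map]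
  exact SetLike.coe_mem _

theorem conj_mem_MerInf (hcusp : ∀ g : SL(2, ℤ), compMer g m ∈ MerInf N) (q : Q N) :
    conj N m q ∈ MerInf N :=
  hcusp _

/-- **the coefficients of the coset polynomial are meromorphic at the cusp** -/
theorem coeff_mem_MerInf (hcusp : ∀ g : SL(2, ℤ), compMer g m ∈ MerInf N) (k : ℕ) :
    (cosetPoly N m).coeff k ∈ MerInf N :=
  coeff_prod_X_sub_C_mem Finset.univ (MerInf N) (conj N m) (fun _ _ => hcusp _) k

/-- and so are all their translates (they are invariant) -/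
theorem compMer_coeff_mem_MerInf (hm : ∀ γ : SL(2, ℤ), γ ∈ Gamma0 N → compMer γ m = m)
    (hcusp : ∀ g : SL(2, ℤ), compMer g m ∈ MerInf N) (δ : SL(2, ℤ)) (k : ℕ) :
    compMer δ ((cosetPoly N m).coeff k) ∈ MerInf N := by
  rw [compMer_coeff hm]
  exact coeff_mem_MerInf hcusp k

/-- **Degree bound.** If all coefficients of the coset polynomial come from a field `k`
(e.g. `k = ℂ(j)`, by the level-one theorem), then `m` is algebraic over `k` of degree at most
`ψ(N)`.  This is the hypothesis `hS` of `BoundedDegree.fieldRange_eq_of_forall_natDegree_le`. -/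
theorem isIntegral_and_natDegree_minpoly_le {k : Type*} [Field k] [Algebra k Mer]
    (hm : ∀ γ : SL(2, ℤ), γ ∈ Gamma0 N → compMer γ m = m)
    (hk : ∀ i : ℕ, (cosetPoly N m).coeff i ∈ (algebraMap k Mer).range) :
    IsIntegral k m ∧ (minpoly k m).natDegree ≤ ModularCurve.dedekindPsi N := by
  have hlift : cosetPoly N m ∈ Polynomial.lifts (algebraMap k Mer) := by
    rw [Polynomial.lifts_iff_coeff_lifts]
    intro i
    exact hk i
  obtain ⟨p, hp, hdeg, hmonic⟩ :=
    Polynomial.lifts_and_natDegree_eq_and_monic hlift (cosetPoly_monic m)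
  have hroot : Polynomial.aeval m p = 0 := by
    rw [Polynomial.aeval_def, Polynomial.eval₂_eq_eval_map, hp]
    exact eval_cosetPoly hm
  have hint : IsIntegral k m := ⟨p, hmonic, hroot⟩
  refine ⟨hint, ?_⟩
  calc (minpoly k m).natDegree ≤ p.natDegree :=
        Polynomial.natDegree_le_of_dvd (minpoly.dvd k m hroot) hmonic.ne_zero
    _ = ModularCurve.dedekindPsi N := by rw [hdeg, natDegree_cosetPoly]

end

end Fermat.Agent.S29.ModFunC.CosetPoly
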