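import Fermat.Agent.S29.ModFunC.BoundedDegree
import Fermat.Agent.S18.Gauss.Concrete

/-!
# The degree bound for the converse of the modular-function bridge

Generic: `k ⊆ F` fields of characteristic zero with `[F : k] = n`, `Φ : F →+* M` a ring
homomorphism into a field, `S` a subfield of `M` containing `Φ(F)` in which every element is a root
of a nonzero polynomial of degree `≤ n` with coefficients in `Φ(k)`.  Then `S = Φ(F)`.

Instantiated: `F = F_L := laurentBaseChange L (modularFunctionFieldFull N)` for any field `L` of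
characteristic zero, `k = L(j)`, `n = ψ(N)` (`S18.Gauss.Concrete.finrank_eq_psi`).
-/

set_option autoImplicit false
set_option linter.style.haveILetI false

open Polynomial IntermediateField

namespace Fermat.Agent.S29.ModFunC.DegreeBoundPsi

open Fermat.Agent.S29.ModFunC.BoundedDegree

/-- **Generic degree bound.** -/
theorem mem_range_of_degree_bound {k F M : Type*} [Field k] [CharZero k] [Field F] [Algebra k F]
    [FiniteDimensional k F] [Field M] (Φ : F →+* M) (n : ℕ) (hF : Module.finrank k F = n)
    (S : Subfield M) (hΦS : ∀ x, Φ x ∈ S)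
    (hS : ∀ m ∈ S, ∃ P : Polynomial k, P ≠ 0 ∧ P.natDegree ≤ n ∧
      Polynomial.eval₂ (Φ.comp (algebraMap k F)) m P = 0) :
    ∀ m ∈ S, m ∈ Φ.range := by
  letI : Algebra k M := (Φ.comp (algebraMap k F)).toAlgebra
  have halg : ∀ c : k, algebraMap k M c = Φ (algebraMap k F c) := fun c => rfl
  let φ : F →ₐ[k] M := { Φ with commutes' := fun c => (halg c).symm }
  have hφ : ∀ x, φ x = Φ x := fun x => rfl
  let S' : IntermediateField k M := S.toIntermediateField (fun c => by rw [halg]; exact hΦS _)
  have hmemS' : ∀ m, m ∈ S' ↔ m ∈ S := fun m => Iff.rfl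
  have hφS : φ.fieldRange ≤ S' := by
    rintro _ ⟨x, rfl⟩
    exact (hmemS' _).mpr (hΦS x)
  have hS' : ∀ m ∈ S', IsIntegral k m ∧ (minpoly k m).natDegree ≤ n := by
    intro m hm
    obtain ⟨P, hP0, hPdeg, hPev⟩ := hS m ((hmemS' m).mp hm)
    have haeval : Polynomial.aeval m P = 0 := by
      rw [Polynomial.aeval_def]
      exact hPev
    have hint : IsIntegral k m := (isAlgebraic_iff_isIntegral).mp ⟨P, hP0, haeval⟩
    refine ⟨hint, ?_⟩
    exact (Polynomial.natDegree_le_of_dvd (minpoly.dvd k m haeval) hP0).trans hPdeg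
  have heq := fieldRange_eq_of_forall_natDegree_le φ n hF S' hφS hS'
  intro m hm
  have : m ∈ φ.fieldRange := by rw [heq]; exact (hmemS' m).mpr hm
  obtain ⟨x, hx⟩ := this
  exact ⟨x, hx⟩

section concrete

open ModularCurve Fermat.Agent.S28 Fermat.Agent.S18.Gauss
  Fermat.Agent.S18.Gauss.Residue

variable (L : Type*) [Field L] [Algebra ℚ L] (N : ℕ) [NeZero N]

/-- **The degree bound for `F_L = laurentBaseChange L (modularFunctionFieldFull N)`.**
A subfield `S ⊇ Φ(F_L)` of a field `M` in which every element is a root of a nonzero polynomial of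
degree `≤ ψ(N)` over `Φ(L(j))` equals `Φ(F_L)`. -/
theorem mem_range_of_degree_le_psi {M : Type*} [Field M]
    (Φ : ↥(laurentBaseChange L (modularFunctionFieldFull N)) →+* M) (S : Subfield M)
    (hΦS : ∀ x, Φ x ∈ S)
    (hS : ∀ m ∈ S, ∃ P : Polynomial ↥(L⟮Jel (Concrete.jqModC_mem L N)⟯), P ≠ 0 ∧
      P.natDegree ≤ dedekindPsi N ∧
      Polynomial.eval₂ (Φ.comp (algebraMap ↥(L⟮Jel (Concrete.jqModC_mem L N)⟯)
        ↥(laurentBaseChange L (modularFunctionFieldFull N)))) m P = 0) :
    ∀ m ∈ S, m ∈ Φ.range := by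
  haveI h0 : CharZero L := algebraRat.charZero L
  haveI h1 : CharZero ↥(laurentBaseChange L (modularFunctionFieldFull N)) :=
    charZero_of_injective_algebraMap
      (algebraMap L ↥(laurentBaseChange L (modularFunctionFieldFull N))).injective
  haveI h2 : CharZero ↥(L⟮Jel (Concrete.jqModC_mem L N)⟯) :=
    RingHom.charZero (algebraMap ↥(L⟮Jel (Concrete.jqModC_mem L N)⟯)
      ↥(laurentBaseChange L (modularFunctionFieldFull N)))
  haveI := Fermat.Agent.S18.Gauss.Concrete.finiteDimensional L N
  exact mem_range_of_degree_bound Φ (dedekindPsi N) (Concrete.finrank_eq_psi L N) S hΦS hS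

end concrete

end Fermat.Agent.S29.ModFunC.DegreeBoundPsi
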