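import Mathlib
import Fermat.Agent.S29.ModFunC.LevelOne
import Fermat.Agent.S24.BridgeInv
import Fermat.Agent.S20.Psi
import Fermat.Agent.S20.LevelOne

set_option autoImplicit false

/-!
# S29 / (R3-MF): the symmetric-function step of the converse

Let `m ∈ Mer` be invariant under `Γ₀(N)` and such that all its `SL(2,ℤ)`-translates are
meromorphic at `i∞`.  Then `m` is a root of the monic polynomial
`P(X) = ∏_{gΓ₀(N)} (X - m ∘ g⁻¹)` of degree `ψ(N) = [SL(2,ℤ) : Γ₀(N)]`, whose coefficients are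
`SL(2,ℤ)`-invariant and meromorphic at `i∞`, hence rational functions of `j`.
-/

namespace Fermat.Agent.S29.ModFunC.SymmPoly

open scoped MatrixGroups
open Polynomial CongruenceSubgroup
open Fermat.Agent.S20 Fermat.Agent.S24 Fermat.Agent.S24.PsiLe Fermat.Agent.S24.BridgeInv

noncomputable section

variable (N : ℕ) [NeZero N]

/-- the conjugate `m ∘ g⁻¹` attached to the left coset `q = g Γ₀(N)`. -/
def conj (m : Mer) (q : Q N) : Mer := compMer q.out⁻¹ m

variable {N}

theorem conj_mk {m : Mer} (hinv : ∀ γ ∈ Gamma0 N, compMer γ m = m) (g : SL(2, ℤ)) :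
    conj N m (QuotientGroup.mk g : Q N) = compMer g⁻¹ m := by
  obtain ⟨h, hh⟩ := QuotientGroup.mk_out_eq_mul (Gamma0 N) g
  show compMer (QuotientGroup.mk g : Q N).out⁻¹ m = _
  rw [hh, mul_inv_rev, compMer_mul, hinv _ (inv_mem h.2)]

theorem conj_one {m : Mer} (hinv : ∀ γ ∈ Gamma0 N, compMer γ m = m) :
    conj N m (QuotientGroup.mk 1 : Q N) = m := by
  rw [conj_mk hinv, inv_one, compMer_one]

/-- translation law: `(conj m q) ∘ δ⁻¹ = conj m (δ • q)`. -/
theorem compMer_conj {m : Mer} (hinv : ∀ γ ∈ Gamma0 N, compMer γ m = m) (δ : SL(2, ℤ))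
    (q : Q N) : compMer δ⁻¹ (conj N m q) = conj N m (δ • q) := by
  induction q using QuotientGroup.induction_on with
  | H g =>
    have : δ • (QuotientGroup.mk g : Q N) = QuotientGroup.mk (δ * g) := rfl
    rw [this, conj_mk hinv, conj_mk hinv, mul_inv_rev, compMer_mul]

theorem conj_mem_MerInf {m : Mer} (hcusp : ∀ g : SL(2, ℤ), compMer g m ∈ MerInf N) (q : Q N) :
    conj N m q ∈ MerInf N := hcusp _

variable (N)

/-- `P(X) = ∏_q (X - m ∘ q⁻¹)`. -/
def symmPoly (m : Mer) : Mer[X] := ∏ q : Q N, (X - C (conj N m q))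

variable {N}

theorem symmPoly_monic (m : Mer) : (symmPoly N m).Monic :=
  monic_prod_of_monic _ _ fun q _ => monic_X_sub_C (conj N m q)

theorem natDegree_symmPoly (m : Mer) : (symmPoly N m).natDegree = Fintype.card (Q N) := by
  rw [symmPoly, natDegree_prod_of_monic _ _ fun q _ => monic_X_sub_C (conj N m q)]
  simp

theorem eval_symmPoly_self {m : Mer} (hinv : ∀ γ ∈ Gamma0 N, compMer γ m = m) :
    (symmPoly N m).eval m = 0 := by
  rw [symmPoly, eval_prod]
  refine Finset.prod_eq_zero (Finset.mem_univ (QuotientGroup.mk 1 : Q N)) ?_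
  rw [eval_sub, eval_X, eval_C, conj_one hinv, sub_self]

/-- the polynomial is fixed by every `compMer δ⁻¹` applied to the coefficients. -/
theorem map_symmPoly {m : Mer} (hinv : ∀ γ ∈ Gamma0 N, compMer γ m = m) (δ : SL(2, ℤ)) :
    (symmPoly N m).map (compMer δ⁻¹) = symmPoly N m := by
  rw [symmPoly, Polynomial.map_prod]
  have h1 : ∀ q : Q N, (X - C (conj N m q)).map (compMer δ⁻¹) = X - C (conj N m (δ • q)) := by
    intro q
    rw [Polynomial.map_sub, map_X, map_C, compMer_conj hinv]
  simp_rw [h1]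
  exact Fintype.prod_equiv (MulAction.toPerm δ) _ _ fun q => rfl

theorem compMer_coeff {m : Mer} (hinv : ∀ γ ∈ Gamma0 N, compMer γ m = m) (δ : SL(2, ℤ))
    (k : ℕ) : compMer δ ((symmPoly N m).coeff k) = (symmPoly N m).coeff k := by
  have h := congrArg (fun p => p.coeff k) (map_symmPoly hinv δ⁻¹)
  simp only [coeff_map, inv_inv] at h
  exact h

theorem coeff_mem_MerInf {m : Mer} (hcusp : ∀ g : SL(2, ℤ), compMer g m ∈ MerInf N) (k : ℕ) :
    (symmPoly N m).coeff k ∈ MerInf N := by
  have h1 : symmPoly N m =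
      (∏ q : Q N, (X - C (⟨conj N m q, conj_mem_MerInf hcusp q⟩ : MerInf N))).map
        (MerInf N).subtype := by
    rw [symmPoly, Polynomial.map_prod]
    refine Finset.prod_congr rfl fun q _ => ?_
    rw [Polynomial.map_sub, map_X, map_C]
    rfl
  rw [h1, coeff_map]
  exact Subtype.property _

/-- the predicate "is a rational function of `j`". -/
def IsRatJ (c : Mer) : Prop :=
  ∃ P Q : ℂ[X], Q ≠ 0 ∧ c * toMer (aeval JBridge.jHol Q) = toMer (aeval JBridge.jHol P)

/-- **the coefficients are rational functions of `j`.** -/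
theorem isRatJ_coeff {m : Mer} (hinv : ∀ γ ∈ Gamma0 N, compMer γ m = m)
    (hcusp : ∀ g : SL(2, ℤ), compMer g m ∈ MerInf N) (k : ℕ) :
    IsRatJ ((symmPoly N m).coeff k) :=
  exists_poly_of_invariant N (fun δ => compMer_coeff hinv δ k) (coeff_mem_MerInf hcusp k)

theorem card_Q_eq_psi : Fintype.card (Q N) = ModularCurve.dedekindPsi N := by
  rw [← Nat.card_eq_fintype_card, ← index_Gamma0_eq_card, index_Gamma0 N (NeZero.ne N)]

/-- **Symmetric-function step.**  A `Γ₀(N)`-invariant element of `Mer`, all of whose translates are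
meromorphic at `i∞`, is a root of a monic polynomial of degree `ψ(N)` whose coefficients are
rational functions of `j`. -/
theorem exists_monic_relation (m : Mer) (hinv : ∀ γ ∈ Gamma0 N, compMer γ m = m)
    (hcusp : ∀ g : SL(2, ℤ), compMer g m ∈ MerInf N) :
    ∃ p : Mer[X], p.Monic ∧ p.natDegree = ModularCurve.dedekindPsi N ∧
      (∀ k, IsRatJ (p.coeff k)) ∧ p.eval m = 0 :=
  ⟨symmPoly N m, symmPoly_monic m, (natDegree_symmPoly m).trans card_Q_eq_psi,
    isRatJ_coeff hinv hcusp, eval_symmPoly_self hinv⟩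

end

end Fermat.Agent.S29.ModFunC.SymmPoly
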